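import Fermat.Agent.Duality.Core.Basic
import Fermat.Agent.Duality.Core.GaloisS
import Fermat.Agent.LocalP.Places

/-!
# Fields of open subgroups and `p`-groups fixing `μ_p`
-/

set_option autoImplicit false

namespace FermatAgent.Duality

noncomputable section

local notation "Qb" => AlgebraicClosure ℚ
local notation "GQ" => AlgebraicClosure ℚ ≃ₐ[ℚ] AlgebraicClosure ℚ

attribute [local instance] FermatAgent.RT.isGalois_algClosureRat

/-- A subgroup containing an open one is the group of a subfield. -/
theorem exists_field_of_fixingSubgroup_le {F : IntermediateField ℚ Qb} [FiniteDimensional ℚ F]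
    {H : Subgroup GQ} (h : F.fixingSubgroup ≤ H) :
    ∃ K : IntermediateField ℚ Qb, K ≤ F ∧ FiniteDimensional ℚ K ∧ K.fixingSubgroup = H := by
  have ho : IsOpen (H : Set GQ) :=
    Subgroup.isOpen_mono h (IntermediateField.fixingSubgroup_isOpen F)
  have hle : IntermediateField.fixedField H ≤ F := by
    rw [← InfiniteGalois.fixedField_fixingSubgroup F]
    exact IntermediateField.fixedField_antitone h
  exact ⟨_, hle, FiniteDimensional.of_injective (IntermediateField.inclusion hle).toLinearMap
      (IntermediateField.inclusion_injective hle),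
    InfiniteGalois.fixingSubgroup_fixedField ⟨H, H.isClosed_of_isOpen ho⟩⟩

variable {p : ℕ} [Fact p.Prime]

/-- An element with a `p`-power in the kernel of a character into `(ℤ/p)ˣ` is in the kernel. -/
theorem eq_one_of_pow_prime_pow {G : Type*} [Group G] (χ : G →* (ZMod p)ˣ) {g : G} {k : ℕ}
    (h : χ (g ^ p ^ k) = 1) : χ g = 1 := by
  have hp := (Fact.out : p.Prime)
  have h1 : orderOf (χ g) ∣ p ^ k := orderOf_dvd_of_pow_eq_one (by rwa [← map_pow])
  have h2 : orderOf (χ g) ∣ p - 1 := orderOf_dvd_of_pow_eq_one (ZMod.units_pow_card_sub_one_eq_one p (χ g))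
  have hcop : (p ^ k).Coprime (p - 1) := by
    refine Nat.Coprime.pow_left k ((hp.coprime_iff_not_dvd).mpr fun hdvd => ?_)
    have := hp.two_le
    have := Nat.le_of_dvd (by omega) hdvd
    omega
  have h3 : orderOf (χ g) = 1 := Nat.eq_one_of_dvd_one (hcop ▸ Nat.dvd_gcd h1 h2)
  rwa [orderOf_eq_one_iff] at h3

/-- A homomorphism onto `ℤ/p` with a given kernel of index `p`. -/
theorem exists_zmod_character {G : Type*} [Group G] (H : Subgroup G) [H.Normal]
    (hidx : H.index = p) : ∃ f : G → ZMod p, (∀ a b, f (a * b) = f a + f b) ∧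
      (∀ g, f g = 0 ↔ g ∈ H) ∧ ∃ s, f s = 1 := by
  have hcard : Nat.card (G ⧸ H) = p := hidx
  have : IsCyclic (G ⧸ H) := isCyclic_of_prime_card hcard
  have e := zmodCyclicMulEquiv (G := G ⧸ H) inferInstance
  rw [hcard] at e
  refine ⟨fun g => Multiplicative.toAdd (e.symm (QuotientGroup.mk g)), fun a b => ?_, fun g => ?_,
    ?_⟩
  · simp only [QuotientGroup.mk_mul, map_mul, toAdd_mul]
  · show Multiplicative.toAdd (e.symm (QuotientGroup.mk g)) = 0 ↔ g ∈ H
    rw [← QuotientGroup.eq_one_iff]
    exact ⟨fun h => e.symm.injective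
      ((Multiplicative.toAdd.injective (h.trans toAdd_one.symm)).trans (map_one e.symm).symm),
      fun h => by simp [h]⟩
  · obtain ⟨s, hs⟩ := QuotientGroup.mk_surjective (e (Multiplicative.ofAdd 1))
    exact ⟨s, by simp [hs]⟩

end

end FermatAgent.Duality
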