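import Fermat.Agent.Duality.Instance.Fields
import Fermat.Agent.Duality.Global.Interface
import Fermat.Agent.Duality.Euler.FrobPlaces
import Mathlib.FieldTheory.PrimitiveElement

/-!
# Sets of primes big for all subfields of a splitting field
-/

set_option autoImplicit false

namespace FermatAgent.Duality

noncomputable section

local notation "Qb" => AlgebraicClosure ℚ

attribute [local instance] FermatAgent.RT.isGalois_algClosureRat

variable (p : ℕ) [Fact p.Prime]

/-- `S` is big for every subfield of `L` containing `μ_p`. -/
structure BigFor (L : IntermediateField ℚ Qb) (S : Finset Nat.Primes) : Prop where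
  unramified : L.IsUnramifiedOutside S
  p_mem : ExtCitation.pPrime p ∈ S
  classGroup : ∀ (K : IntermediateField ℚ Qb) [FiniteDimensional ℚ K], K ≤ L → ContainsMuP p K →
    ClassGroupGenerated p K S

variable {p}

variable (p) in
/-- Big sets exist. -/
theorem exists_bigFor (L : IntermediateField ℚ Qb) [FiniteDimensional ℚ L] {S₀ : Finset Nat.Primes}
    (hS : L.IsUnramifiedOutside S₀) : ∃ S₁, S₀ ⊆ S₁ ∧ ∀ S, S₁ ⊆ S → BigFor p L S := by
  classical
  have : Finite (IntermediateField ℚ L) :=
    (Field.exists_primitive_element_iff_finite_intermediateField ℚ L).mp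
      ⟨inferInstance, Field.exists_primitive_element ℚ L⟩
  have : Fintype (IntermediateField ℚ L) := Fintype.ofFinite _
  have h : ∀ E : IntermediateField ℚ L, ∃ S' : Finset Nat.Primes,
      ∀ (K : IntermediateField ℚ Qb) [FiniteDimensional ℚ K], K = IntermediateField.lift E →
        ClassGroupGenerated p K S' := fun E => by
    have : FiniteDimensional ℚ (IntermediateField.lift E) :=
      (IntermediateField.liftAlgEquiv E).toLinearEquiv.finiteDimensional
    obtain ⟨S', -, hS'⟩ := exists_classGroupGenerated p (IntermediateField.lift E) S₀
    exact ⟨S', fun K _ e => by subst e; exact hS'⟩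
  choose F hF using h
  refine ⟨insert (ExtCitation.pPrime p) (S₀ ∪ Finset.univ.biUnion F),
    Finset.subset_union_left.trans (Finset.subset_insert _ _), fun S hsub => ⟨?_, ?_, ?_⟩⟩
  · exact hS.mono ((Finset.subset_union_left.trans (Finset.subset_insert _ _)).trans hsub)
  · exact hsub (Finset.mem_insert_self _ _)
  · intro K _ hle _
    refine Euler.classGroupGenerated_mono
      (hF (IntermediateField.restrict hle) K (IntermediateField.lift_restrict hle).symm) ?_
    exact fun q hq => hsub (Finset.mem_insert_of_mem (Finset.mem_union_right _
      (Finset.mem_biUnion.mpr ⟨_, Finset.mem_univ _, hq⟩)))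

end

end FermatAgent.Duality
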