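import Fermat.Agent.Duality.Core.Functorial
import Mathlib.LinearAlgebra.FiniteDimensional.Lemmas

/-!
# Transport of cohomology along isomorphisms, and proportional functionals
-/

set_option autoImplicit false

namespace FermatAgent.Duality

open Module

noncomputable section

section Transport

variable {k G H : Type*} [CommRing k] [Group G] [Group H]
variable {LG : LevelSystem G} {LH : LevelSystem H}
variable {M N : Type*} [AddCommGroup M] [Module k M] [AddCommGroup N] [Module k N]
variable {ρ : Representation k G M} {σ : Representation k H N}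
variable {f : H →* G} (e : G →* H) (hef : ∀ g, f (e g) = g) (hfe : ∀ h, e (f h) = h)
variable (hf : IsLevHom LH LG f) {φ : M →ₗ[k] N} (hφ : IsEquivariant ρ σ f φ)
variable (E : N →ₗ[k] M) (hE : ∀ m, E (φ m) = m) (hE' : ∀ n, φ (E n) = n)

-- `hfe` is unused here but kept so that callers see a uniform argument list.
set_option linter.unusedSectionVars false in
include hef hfe hφ hE hE' in
lemma isEquivariant_inverse : IsEquivariant σ ρ e E := fun g n => by
  have h := hφ (e g) (E n)
  rw [hef, hE'] at h
  rw [← h, hE]

include hef hfe hE hE' in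
/-- An isomorphism induces a bijection in degree `1`. -/
theorem map1_bijective (he : IsLevHom LG LH e) : Function.Bijective (map1 ρ σ hf hφ) := by
  refine Function.bijective_iff_has_inverse.mpr
    ⟨map1 σ ρ he (isEquivariant_inverse e hef hfe hφ E hE hE'), fun x => ?_, fun y => ?_⟩
  · induction x using Submodule.Quotient.induction_on with
    | _ z =>
      refine congrArg (cl1 LG ρ) (Subtype.ext (funext fun g => ?_))
      show E (φ (z.1 (f (e g)))) = z.1 g
      rw [hE, hef]
  · induction y using Submodule.Quotient.induction_on with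
    | _ z =>
      refine congrArg (cl1 LH σ) (Subtype.ext (funext fun g => ?_))
      show φ (E (z.1 (e (f g)))) = z.1 g
      rw [hE', hfe]

include hef hfe hE hE' in
/-- An isomorphism induces a bijection in degree `2`. -/
theorem map2_bijective (he : IsLevHom LG LH e) : Function.Bijective (map2 ρ σ hf hφ) := by
  refine Function.bijective_iff_has_inverse.mpr
    ⟨map2 σ ρ he (isEquivariant_inverse e hef hfe hφ E hE hE'), fun x => ?_, fun y => ?_⟩
  · induction x using Submodule.Quotient.induction_on with
    | _ z =>
      refine congrArg (cl2 LG ρ) (Subtype.ext (funext fun g => ?_))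
      show E (φ (z.1 (f (e g.1), f (e g.2)))) = z.1 g
      rw [hE, hef, hef]
  · induction y using Submodule.Quotient.induction_on with
    | _ z =>
      refine congrArg (cl2 LH σ) (Subtype.ext (funext fun g => ?_))
      show φ (E (z.1 (e (f g.1), e (f g.2)))) = z.1 g
      rw [hE', hfe, hfe]

end Transport

/-- If the kernel of a sum of functionals lies in that of a nonzero one, the kernels agree. -/
theorem sum_apply_eq_zero_of_ker_le {k ι : Type*} [Field k] [Fintype ι] {V : ι → Type*}
    [∀ w, AddCommGroup (V w)] [∀ w, Module k (V w)] (φ ψ : ∀ w, V w →ₗ[k] k)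
    (h : ∀ v : ∀ w, V w, ∑ w, φ w (v w) = 0 → ∑ w, ψ w (v w) = 0) {w₀ : ι} {u₀ : V w₀}
    (hu₀ : ψ w₀ u₀ = 1) {z : ∀ w, V w} (hz : ∑ w, ψ w (z w) = 0) : ∑ w, φ w (z w) = 0 := by
  classical
  by_contra hne
  let u : ∀ w, V w := Pi.single w₀ u₀
  have hu : ∑ w, ψ w (u w) = 1 := by
    rw [Finset.sum_eq_single w₀ (fun w _ hw => by simp [u, Pi.single_eq_of_ne hw]) (by simp)]
    simp [u, hu₀]
  have h1 := h (fun w => u w - ((∑ v, φ v (u v)) / ∑ v, φ v (z v)) • z w) (by
    simp only [map_sub, map_smul, smul_eq_mul, Finset.sum_sub_distrib, ← Finset.mul_sum,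
      div_mul_cancel₀ _ hne, sub_self])
  simp only [map_sub, map_smul, smul_eq_mul, Finset.sum_sub_distrib, ← Finset.mul_sum, hu, hz,
    mul_zero, sub_zero] at h1
  exact one_ne_zero h1

/-- A nonzero functional on a line is bijective. -/
theorem bijective_of_finrank_one {k V : Type*} [Field k] [AddCommGroup V] [Module k V]
    (h : finrank k V = 1) {f : V →ₗ[k] k} (hf : f ≠ 0) : Function.Bijective f := by
  have : FiniteDimensional k V := Module.finite_of_finrank_eq_succ h
  have hs : Function.Surjective f := (LinearMap.surjective hf)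
  exact ⟨(LinearMap.injective_iff_surjective_of_finrank_eq_finrank
    (by rw [h, finrank_self])).mpr hs, hs⟩

end

end FermatAgent.Duality
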