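import Fermat.Agent.Duality.PT.Families
import Fermat.Agent.Duality.Instance.Transport
import Fermat.Agent.Duality.Global.Interface

/-!
# Data attached to a base field, a finite set of places and a splitting field

`j : G → G_ℚ` is injective with image the group of the base field.
-/

set_option autoImplicit false

open scoped Pointwise

namespace FermatAgent.Duality

open Module

noncomputable section

local notation "Qb" => AlgebraicClosure ℚ
local notation "GQ" => AlgebraicClosure ℚ ≃ₐ[ℚ] AlgebraicClosure ℚ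

attribute [local instance] FermatAgent.RT.isGalois_algClosureRat

variable {p : ℕ} [Fact p.Prime]

/-- A base field with representatives of its places over `S`, and a splitting field. -/
structure FieldSetup (p : ℕ) [Fact p.Prime] (G : Type) [Group G] (S : Finset Nat.Primes) :
    Type 1 where
  j : G →* GQ
  j_injective : Function.Injective j
  ι : Type
  [fintypeι : Fintype ι]
  prime : ι → Nat.Primes
  place : ι → ValuationSubring Qb
  prime_mem : ∀ i, prime i ∈ S
  liesOver : ∀ i, (place i).LiesOverPrime (prime i : ℕ)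
  exhausts : ∀ q ∈ S, ∀ A : ValuationSubring Qb, A.LiesOverPrime (q : ℕ) →
    ∃ i, prime i = q ∧ ∃ g : G, A = j g • place i
  inj : ∀ i k (g : G), place k = j g • place i → i = k
  F : IntermediateField ℚ Qb
  [fd : FiniteDimensional ℚ F]
  le_range : F.fixingSubgroup ≤ j.range
  [normal : (F.fixingSubgroup.comap j).Normal]
  unramified : F.IsUnramifiedOutside S
  containsMuP : ContainsMuP p F

attribute [instance] FieldSetup.fintypeι FieldSetup.fd FieldSetup.normal

namespace FieldSetup

variable {G : Type} [Group G] {S : Finset Nat.Primes} (B : FieldSetup p G S)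

/-- The levels of the base. -/
abbrev lev : LevelSystem G := (sLevels S).comap B.j

/-- The decomposition group at a place. -/
def dec (i : B.ι) : Subgroup G := ((B.place i).decompositionSubgroup ℚ).comap B.j

/-- The levels of a decomposition group. -/
abbrev decLev (i : B.ι) : LevelSystem (B.dec i) := qLevels.comap (B.j.comp (B.dec i).subtype)

/-- The group of the splitting field. -/
abbrev bigN : Subgroup G := B.F.fixingSubgroup.comap B.j

/-- The cyclotomic character of the base. -/
abbrev chi : G →* (ZMod p)ˣ := (ExtCitation.cycloChar p).comp B.j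

lemma finiteIndex_bigN : B.bigN.FiniteIndex := by
  have := finiteIndex_fixingSubgroup B.F
  refine ⟨?_⟩
  rw [bigN, Subgroup.index_comap]
  have := Subgroup.isFiniteRelIndex_of_finiteIndex (H := B.F.fixingSubgroup) (K := B.j.range)
  exact Subgroup.relIndex_ne_zero

/-- The datum attached to functionals on the local `H²`. -/
def datum (inv : ∀ i, H2c (B.decLev i) ((cyc B.chi).comp (B.dec i).subtype) →ₗ[ZMod p] ZMod p) :
    Datum p G where
  L := B.lev
  N := B.bigN
  fintypeQuot :=
    haveI := B.finiteIndex_bigN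
    Subgroup.fintypeQuotientOfFiniteIndex
  level_le := ⟨_, ⟨_, ⟨B.F, B.unramified, rfl⟩, rfl⟩, le_rfl⟩
  χ := B.chi
  χ_triv := fun _ hn => B.containsMuP _ hn
  ι := B.ι
  D := B.dec
  locLev := B.decLev
  isLevHom := fun i => by
    rintro _ ⟨_, ⟨K, hK, rfl⟩, rfl⟩
    exact ⟨_, ⟨_, ⟨K, hK.1, rfl⟩, rfl⟩, fun d hd => hd⟩
  inv := inv

variable (inv : ∀ i, H2c (B.decLev i) ((cyc B.chi).comp (B.dec i).subtype) →ₗ[ZMod p] ZMod p)

/-- The place of the splitting field at a class of places. -/
def bigPlace (w : (B.datum inv).W) : ValuationSubring Qb :=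
  B.j ((B.datum inv).sec w.2) • B.place w.1

lemma liesOver_smul {A : ValuationSubring Qb} {q : ℕ} (hA : A.LiesOverPrime q) (g : GQ) :
    (g • A).LiesOverPrime q := by
  have hA0 : (q : Qb) ∈ A.nonunits := hA
  show (q : Qb) ∈ (g • A).nonunits
  rw [ValuationSubring.mem_nonunits_iff_or] at hA0 ⊢
  rcases hA0 with h | h
  · exact Or.inl h
  · right
    intro h2
    apply h
    rw [ValuationSubring.mem_pointwise_smul_iff_inv_smul_mem] at h2
    simpa using h2

/-- The places of the splitting field. -/
def bigSystem : PlaceSystem B.F S where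
  ι := (B.datum inv).W
  prime w := B.prime w.1
  place := B.bigPlace inv
  prime_mem w := B.prime_mem w.1
  liesOver w := liesOver_smul (B.liesOver w.1) _
  exhausts := by
    intro q hq A hA
    obtain ⟨i, hi, g, rfl⟩ := B.exhausts q hq A hA
    obtain ⟨d, hd, n, hn, e⟩ := (B.datum inv).exists_sec_mk (i := i) g
    have hn' : g * d * n * (g * d)⁻¹ ∈ B.bigN := (inferInstance : B.bigN.Normal).conj_mem _ hn _
    refine ⟨⟨i, QuotientGroup.mk g⟩, hi, B.j (g * d * n * (g * d)⁻¹)⁻¹, inv_mem hn', ?_⟩
    rw [bigPlace, ← mul_smul, e, ← map_mul,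
      show (g * d * n * (g * d)⁻¹)⁻¹ * (g * d * n) = g * d by group, map_mul, mul_smul]
    exact congrArg _ (hd : B.j d ∈ MulAction.stabilizer GQ (B.place i)).symm
  inj := by
    rintro ⟨i, c⟩ ⟨k, c'⟩ x hx e
    obtain ⟨n, rfl⟩ := B.le_range hx
    have hn : n ∈ B.bigN := hx
    set s := (B.datum inv).sec c
    set s' := (B.datum inv).sec c'
    have e' : B.place k = B.j (s'⁻¹ * n * s) • B.place i := by
      show _ = _
      rw [map_mul, map_mul, map_inv, mul_smul, mul_smul]
      have e1 : B.j s' • B.place k = B.j n • B.j s • B.place i := e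
      rw [← e1, inv_smul_smul]
    obtain rfl := B.inj i k _ e'
    have hd : s'⁻¹ * n * s ∈ B.dec i := e'.symm
    refine Sigma.ext rfl (heq_of_eq ?_)
    rw [← mk_coresSec _ c, ← mk_coresSec _ c', eq_comm, QuotientGroup.eq]
    have h1 := (inferInstance : B.bigN.Normal).conj_mem _ (inv_mem hn) s'⁻¹
    have h2 := Subgroup.mul_mem_sup hd h1
    have h3 := Subgroup.mul_mem_sup (one_mem (B.dec i)) h1
    show s'⁻¹ * s ∈ B.dec i ⊔ B.bigN
    rw [show s'⁻¹ * s = (s'⁻¹ * n⁻¹ * s'⁻¹⁻¹) * (s'⁻¹ * n * s) by group]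
    exact mul_mem (Subgroup.mem_sup_right h1) (Subgroup.mem_sup_left hd)

/-- The identification of the local part of `N` with a local group of the splitting field. -/
def toBigLocal (w : (B.datum inv).W) :
    (B.datum inv).Ni w.1 →* localGroup B.F (B.bigPlace inv w) where
  toFun u := ⟨B.j ((B.datum inv).sec w.2 * (u.1.1) * ((B.datum inv).sec w.2)⁻¹), by
    refine ⟨(inferInstance : B.bigN.Normal).conj_mem _ u.2 _, ?_⟩
    show _ ∈ MulAction.stabilizer GQ (B.bigPlace inv w)
    rw [MulAction.mem_stabilizer_iff, bigPlace, map_mul, map_mul, map_inv, mul_smul, mul_smul,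
      inv_smul_smul]
    exact congrArg _ (u.1.2 :)⟩
  map_one' := by ext1; simp
  map_mul' a b := by
    ext1
    simp only [Subgroup.coe_mul, ← map_mul]
    congr 1
    group

lemma toBigLocal_bijective (w : (B.datum inv).W) : Function.Bijective (B.toBigLocal inv w) := by
  refine ⟨fun a b h => ?_, fun v => ?_⟩
  · have h1 := B.j_injective (congrArg Subtype.val h)
    exact Subtype.ext (Subtype.ext (mul_left_cancel (mul_right_cancel h1)))
  · obtain ⟨g, hg⟩ := B.le_range v.2.1
    set s := (B.datum inv).sec w.2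
    have hgN : g ∈ B.bigN := by show B.j g ∈ B.F.fixingSubgroup; rw [hg]; exact v.2.1
    have hd : s⁻¹ * g * s ∈ B.dec w.1 := by
      show B.j _ ∈ MulAction.stabilizer GQ (B.place w.1)
      have h : (v : GQ) • B.bigPlace inv w = B.bigPlace inv w := v.2.2
      rw [← hg, bigPlace] at h
      rw [MulAction.mem_stabilizer_iff, map_mul, map_mul, map_inv, mul_smul, mul_smul, h,
        inv_smul_smul]
    refine ⟨⟨⟨_, hd⟩, ?_⟩, Subtype.ext ?_⟩
    · have h2 := (inferInstance : B.bigN.Normal).conj_mem _ hgN s⁻¹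
      rw [inv_inv] at h2
      exact h2
    · show B.j (s * (s⁻¹ * g * s) * s⁻¹) = v
      rw [show s * (s⁻¹ * g * s) * s⁻¹ = g by group, hg]

/-- The inverse identification. -/
def ofBigLocal (w : (B.datum inv).W) :
    localGroup B.F (B.bigPlace inv w) →* (B.datum inv).Ni w.1 :=
  (MulEquiv.ofBijective _ (B.toBigLocal_bijective inv w)).symm.toMonoidHom

lemma toBigLocal_ofBigLocal (w : (B.datum inv).W) (v : localGroup B.F (B.bigPlace inv w)) :
    B.toBigLocal inv w (B.ofBigLocal inv w v) = v :=
  (MulEquiv.ofBijective _ (B.toBigLocal_bijective inv w)).apply_symm_apply v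

lemma ofBigLocal_toBigLocal (w : (B.datum inv).W) (u : (B.datum inv).Ni w.1) :
    B.ofBigLocal inv w (B.toBigLocal inv w u) = u :=
  (MulEquiv.ofBijective _ (B.toBigLocal_bijective inv w)).symm_apply_apply u

lemma isLevHom_toBigLocal (w : (B.datum inv).W) :
    IsLevHom ((B.decLev w.1).comap ((B.datum inv).Ni w.1).subtype)
      (localLevels B.F (B.bigPlace inv w)) (B.toBigLocal inv w) := by
  rintro _ ⟨U, hU, rfl⟩
  obtain ⟨V, hV, hle, hn⟩ := qLevels.exists_normal hU
  refine ⟨_, ⟨_, ⟨V, hV, rfl⟩, rfl⟩, fun u hu => hle ?_⟩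
  show B.j (_ * _ * _⁻¹) ∈ V
  rw [map_mul, map_mul, map_inv]
  exact hn.conj_mem _ hu _

lemma isLevHom_ofBigLocal (w : (B.datum inv).W) :
    IsLevHom (localLevels B.F (B.bigPlace inv w))
      ((B.decLev w.1).comap ((B.datum inv).Ni w.1).subtype) (B.ofBigLocal inv w) := by
  rintro _ ⟨_, ⟨U, hU, rfl⟩, rfl⟩
  obtain ⟨V, hV, hle, hn⟩ := qLevels.exists_normal hU
  refine ⟨_, ⟨V, hV, rfl⟩, fun v hv => hle ?_⟩
  show B.j ((B.ofBigLocal inv w v).1.1) ∈ V
  have h : B.j ((B.datum inv).sec w.2 * ((B.ofBigLocal inv w v).1.1) *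
      ((B.datum inv).sec w.2)⁻¹) = v := congrArg Subtype.val (B.toBigLocal_ofBigLocal inv w v)
  rw [map_mul, map_mul, map_inv] at h
  have hv' : (v : GQ) ∈ V := hv
  have h2 := hn.conj_mem _ hv' (B.j ((B.datum inv).sec w.2))⁻¹
  rw [← h] at h2
  simpa [mul_assoc] using h2

/-- The inclusion of `N` into the group of the splitting field. -/
def toBigGlobal : B.bigN →* B.F.fixingSubgroup where
  toFun u := ⟨B.j u, u.2⟩
  map_one' := by ext1; simp
  map_mul' a b := by ext1; simp

lemma toBigGlobal_bijective : Function.Bijective B.toBigGlobal := by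
  refine ⟨fun a b h => Subtype.ext (B.j_injective (congrArg Subtype.val h)), fun v => ?_⟩
  obtain ⟨g, hg⟩ := B.le_range v.2
  exact ⟨⟨g, by show B.j g ∈ B.F.fixingSubgroup; rw [hg]; exact v.2⟩, Subtype.ext hg⟩

/-- The inverse of the inclusion of `N`. -/
def ofBigGlobal : B.F.fixingSubgroup →* B.bigN :=
  (MulEquiv.ofBijective _ B.toBigGlobal_bijective).symm.toMonoidHom

lemma toBigGlobal_ofBigGlobal (v : B.F.fixingSubgroup) :
    B.toBigGlobal (B.ofBigGlobal v) = v :=
  (MulEquiv.ofBijective _ B.toBigGlobal_bijective).apply_symm_apply v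

lemma ofBigGlobal_toBigGlobal (u : B.bigN) : B.ofBigGlobal (B.toBigGlobal u) = u :=
  (MulEquiv.ofBijective _ B.toBigGlobal_bijective).symm_apply_apply u

lemma isLevHom_toBigGlobal :
    IsLevHom (B.lev.comap B.bigN.subtype) (globalLevels B.F S) B.toBigGlobal := by
  rintro _ ⟨U, hU, rfl⟩
  exact ⟨_, ⟨_, ⟨U, hU, rfl⟩, rfl⟩, fun u hu => hu⟩

lemma isLevHom_ofBigGlobal :
    IsLevHom (globalLevels B.F S) (B.lev.comap B.bigN.subtype) B.ofBigGlobal := by
  rintro _ ⟨_, ⟨U, hU, rfl⟩, rfl⟩
  refine ⟨_, ⟨U, hU, rfl⟩, fun v hv => ?_⟩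
  show (B.toBigGlobal (B.ofBigGlobal v) : GQ) ∈ U
  rw [B.toBigGlobal_ofBigGlobal]
  exact hv

lemma equiv_global :
    IsEquivariant (triv (ZMod p) B.F.fixingSubgroup) ((cyc B.chi).comp B.bigN.subtype)
      B.toBigGlobal LinearMap.id := fun u x => (cyc_trivial B.bigN B.chi
        (fun _ hn => B.containsMuP _ hn) u x).symm

lemma equiv_local (w : (B.datum inv).W) :
    IsEquivariant (triv (ZMod p) (localGroup B.F (B.bigPlace inv w)))
      (((cyc B.chi).comp (B.dec w.1).subtype).comp ((B.datum inv).Ni w.1).subtype)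
      (B.toBigLocal inv w) (cyc B.chi ((B.datum inv).sec w.2)⁻¹) := fun u x => by
  have h1 : B.chi (u.1.1) = 1 := B.containsMuP _ u.2
  show cyc B.chi ((B.datum inv).sec w.2)⁻¹ x =
    (B.chi (u.1.1) : ZMod p) * cyc B.chi ((B.datum inv).sec w.2)⁻¹ x
  rw [h1, Units.val_one, one_mul]

lemma cyc_inv_left (s : G) (x : ZMod p) : cyc B.chi s⁻¹ (cyc B.chi s x) = x := by
  rw [← Module.End.mul_apply, ← map_mul, inv_mul_cancel, map_one, Module.End.one_apply]

lemma cyc_inv_right (s : G) (x : ZMod p) : cyc B.chi s (cyc B.chi s⁻¹ x) = x := by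
  rw [← Module.End.mul_apply, ← map_mul, mul_inv_cancel, map_one, Module.End.one_apply]

/-- Global classes of the splitting field as classes of `N`. -/
def fromBig2 : globalH2 p B.F S →ₗ[ZMod p]
    H2c (B.lev.comap B.bigN.subtype) ((cyc B.chi).comp B.bigN.subtype) :=
  map2 _ _ B.isLevHom_toBigGlobal B.equiv_global

/-- Global classes of the splitting field as classes of `N`, in degree `1`. -/
def fromBig1 : globalH1 p B.F S →ₗ[ZMod p]
    H1c (B.lev.comap B.bigN.subtype) ((cyc B.chi).comp B.bigN.subtype) :=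
  map1 _ _ B.isLevHom_toBigGlobal B.equiv_global

lemma fromBig2_bijective : Function.Bijective B.fromBig2 :=
  map2_bijective B.ofBigGlobal B.toBigGlobal_ofBigGlobal B.ofBigGlobal_toBigGlobal _ _
    LinearMap.id (fun _ => rfl) (fun _ => rfl) B.isLevHom_ofBigGlobal

lemma fromBig1_bijective : Function.Bijective B.fromBig1 :=
  map1_bijective B.ofBigGlobal B.toBigGlobal_ofBigGlobal B.ofBigGlobal_toBigGlobal _ _
    LinearMap.id (fun _ => rfl) (fun _ => rfl) B.isLevHom_ofBigGlobal

/-- Local classes of the splitting field as classes of the local part of `N`. -/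
def fromLocal2 (w : (B.datum inv).W) : localH2 p B.F (B.bigPlace inv w) →ₗ[ZMod p]
    H2c ((B.decLev w.1).comap ((B.datum inv).Ni w.1).subtype)
      (((cyc B.chi).comp (B.dec w.1).subtype).comp ((B.datum inv).Ni w.1).subtype) :=
  map2 _ _ (B.isLevHom_toBigLocal inv w) (B.equiv_local inv w)

/-- Local classes of the splitting field as classes of the local part of `N`, in degree `1`. -/
def fromLocal1 (w : (B.datum inv).W) : localH1 p B.F (B.bigPlace inv w) →ₗ[ZMod p]
    H1c ((B.decLev w.1).comap ((B.datum inv).Ni w.1).subtype)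
      (((cyc B.chi).comp (B.dec w.1).subtype).comp ((B.datum inv).Ni w.1).subtype) :=
  map1 _ _ (B.isLevHom_toBigLocal inv w) (B.equiv_local inv w)

lemma fromLocal2_bijective (w : (B.datum inv).W) : Function.Bijective (B.fromLocal2 inv w) :=
  map2_bijective (B.ofBigLocal inv w) (B.toBigLocal_ofBigLocal inv w)
    (B.ofBigLocal_toBigLocal inv w) _ _ (cyc B.chi ((B.datum inv).sec w.2))
    (B.cyc_inv_right _) (B.cyc_inv_left _) (B.isLevHom_ofBigLocal inv w)

lemma fromLocal1_bijective (w : (B.datum inv).W) : Function.Bijective (B.fromLocal1 inv w) :=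
  map1_bijective (B.ofBigLocal inv w) (B.toBigLocal_ofBigLocal inv w)
    (B.ofBigLocal_toBigLocal inv w) _ _ (cyc B.chi ((B.datum inv).sec w.2))
    (B.cyc_inv_right _) (B.cyc_inv_left _) (B.isLevHom_ofBigLocal inv w)

lemma locN_fromBig2 (w : (B.datum inv).W) (y : globalH2 p B.F S) :
    (B.datum inv).locN (cyc B.chi) w (B.fromBig2 y) =
      B.fromLocal2 inv w (loc2 p B.F S (B.bigPlace inv w) y) := by
  induction y using Submodule.Quotient.induction_on with
  | _ z =>
    refine congrArg (cl2 ((B.decLev w.1).comap ((B.datum inv).Ni w.1).subtype)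
      (((cyc B.chi).comp (B.dec w.1).subtype).comp ((B.datum inv).Ni w.1).subtype))
      (Subtype.ext (funext fun q => ?_))
    show cyc B.chi _ (z.1 _) = cyc B.chi _ (z.1 _)
    refine congrArg _ (congrArg z.1 (Prod.ext (Subtype.ext ?_) (Subtype.ext ?_))) <;>
      · show B.j (((B.datum inv).sec w.2)⁻¹⁻¹ * _ * ((B.datum inv).sec w.2)⁻¹) = _
        rw [inv_inv]
        rfl

lemma locN1_fromBig1 (w : (B.datum inv).W) (y : globalH1 p B.F S) :
    (B.datum inv).locN1 (cyc B.chi) w (B.fromBig1 y) =
      B.fromLocal1 inv w (loc1 p B.F S (B.bigPlace inv w) y) := by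
  induction y using Submodule.Quotient.induction_on with
  | _ z =>
    refine congrArg (cl1 ((B.decLev w.1).comap ((B.datum inv).Ni w.1).subtype)
      (((cyc B.chi).comp (B.dec w.1).subtype).comp ((B.datum inv).Ni w.1).subtype))
      (Subtype.ext (funext fun q => ?_))
    show cyc B.chi _ (z.1 _) = cyc B.chi _ (z.1 _)
    refine congrArg _ (congrArg z.1 (Subtype.ext ?_))
    show B.j (((B.datum inv).sec w.2)⁻¹⁻¹ * _ * ((B.datum inv).sec w.2)⁻¹) = _
    rw [inv_inv]
    rfl

lemma theta_fromBig2 (w : (B.datum inv).W) (y : globalH2 p B.F S) :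
    (B.datum inv).theta w (B.fromBig2 y) =
      invCores ((B.datum inv).locLev w.1) ((B.datum inv).Ni w.1) ((B.datum inv).loc_level_le w.1)
        ((B.datum inv).χ.comp ((B.datum inv).D w.1).subtype) ((B.datum inv).inv w.1)
        (B.fromLocal2 inv w (loc2 p B.F S (B.bigPlace inv w) y)) :=
  congrArg (invCores ((B.datum inv).locLev w.1) ((B.datum inv).Ni w.1)
    ((B.datum inv).loc_level_le w.1) ((B.datum inv).χ.comp ((B.datum inv).D w.1).subtype)
    ((B.datum inv).inv w.1)) (B.locN_fromBig2 inv w y)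

variable (hp : p ≠ 2) (hpS : ExtCitation.pPrime p ∈ S)
  (hclass : ClassGroupGenerated p B.F S)
  (hloc : ∀ i, RightExact2 p (B.decLev i) ((B.bigN).subgroupOf (B.dec i)))
  (hne : ∀ i, inv i ≠ 0)
  (hrec : ∀ x : H2c B.lev (cyc B.chi), ∑ i, inv i ((B.datum inv).loc2 (cyc B.chi) i x) = 0)

include hloc hne in
lemma invCores_ne_zero (i : (B.datum inv).ι) :
    invCores ((B.datum inv).locLev i) ((B.datum inv).Ni i) ((B.datum inv).loc_level_le i)
      ((B.datum inv).χ.comp ((B.datum inv).D i).subtype) ((B.datum inv).inv i) ≠ 0 := by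
  intro h
  refine hne i (LinearMap.ext fun x => ?_)
  obtain ⟨y, rfl⟩ := cores2_surjective ((B.datum inv).locLev i) ((B.datum inv).Ni i)
    ((B.datum inv).loc_level_le i) (hloc i)
    (show TrivialOn ((B.datum inv).Ni i) (cyc ((B.datum inv).χ.comp ((B.datum inv).D i).subtype))
      from fun d hd m => cyc_trivial _ _ ((B.datum inv).χ_triv_loc i) ⟨d, hd⟩ m) x
  exact LinearMap.congr_fun h y

include hloc hne in
lemma invCores_bijective_of (i : (B.datum inv).ι) :
    Function.Bijective (invCores ((B.datum inv).locLev i) ((B.datum inv).Ni i)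
      ((B.datum inv).loc_level_le i) ((B.datum inv).χ.comp ((B.datum inv).D i).subtype)
      ((B.datum inv).inv i)) := by
  refine bijective_of_finrank_one ?_ (B.invCores_ne_zero inv hloc hne i)
  let w : (B.datum inv).W := ⟨i, baseCoset _⟩
  have h1 := (LinearEquiv.ofBijective _ (B.fromLocal2_bijective inv w)).finrank_eq
  exact h1.symm.trans (localDualityAt (p := p) (B.prime i).2 B.F B.containsMuP
    (liesOver_smul (B.liesOver i) _ : (B.bigPlace inv w).LiesOverPrime _)).finrank_H2

include hloc hne in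
lemma theta_comp_bijective (w : (B.datum inv).W) :
    Function.Bijective (fun z => invCores ((B.datum inv).locLev w.1) ((B.datum inv).Ni w.1)
      ((B.datum inv).loc_level_le w.1) ((B.datum inv).χ.comp ((B.datum inv).D w.1).subtype)
      ((B.datum inv).inv w.1) (B.fromLocal2 inv w z)) :=
  (B.invCores_bijective_of inv hloc hne w.1).comp (B.fromLocal2_bijective inv w)

set_option maxHeartbeats 1000000 in
include hp hpS hclass hloc hne hrec in
/-- Both conditions on the invariants at the places of the splitting field. -/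
theorem theta_spec :
    (∀ y, (∀ w, (B.datum inv).theta w y = 0) → y = 0) ∧
      (∀ t : (B.datum inv).W → ZMod p, ∑ w, t w = 0 →
        ∃ y, ∀ w, (B.datum inv).theta w y = t w) ∧
      ∀ x, (∀ w, (B.datum inv).locN1 (cyc B.chi) w x = 0) → x = 0 := by
  classical
  obtain ⟨inv', hne', hinj1, hinj2, himg, -⟩ := exists_globalDuality p B.F S hp B.containsMuP
    B.unramified hpS hclass (B.bigSystem inv)
  let φ : ∀ w : (B.datum inv).W, localH2 p B.F (B.bigPlace inv w) →ₗ[ZMod p] ZMod p := fun w =>
    invCores ((B.datum inv).locLev w.1) ((B.datum inv).Ni w.1) ((B.datum inv).loc_level_le w.1)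
      ((B.datum inv).χ.comp ((B.datum inv).D w.1).subtype) ((B.datum inv).inv w.1) ∘ₗ
        B.fromLocal2 inv w
  have hθ : ∀ w y, (B.datum inv).theta w (B.fromBig2 y) =
      φ w (loc2 p B.F S (B.bigPlace inv w) y) := fun w y => by
    exact B.theta_fromBig2 inv w y
  refine ⟨fun y hy => ?_, fun t ht => ?_, fun x hx => ?_⟩
  · obtain ⟨y, rfl⟩ := B.fromBig2_bijective.2 y
    refine (congrArg B.fromBig2 (hinj2 y fun w => (B.theta_comp_bijective inv hloc hne w).1 ?_)).trans
      (map_zero _)
    exact ((hθ w y).symm.trans (hy w)).trans (map_zero (φ w)).symm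
  · choose z hz using fun w => (B.theta_comp_bijective inv hloc hne w).2 (t w)
    by_cases hemp : Nonempty (B.datum inv).W
    · obtain ⟨w₀⟩ := hemp
      obtain ⟨u₀, hu₀⟩ := (B.theta_comp_bijective inv hloc hne w₀).2 1
      have hbz : ∑ w, φ w (z w) = 0 := (Finset.sum_congr rfl fun w _ => hz w).trans ht
      have haz := sum_apply_eq_zero_of_ker_le
        (ι := (B.datum inv).W) (V := fun w => localH2 p B.F (B.bigPlace inv w)) (fun w => inv' w) φ
        (fun v hv => by
          obtain ⟨x, hx⟩ := (himg v).mp hv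
          rw [← (B.datum inv).sum_theta_of_reciprocity hrec (B.fromBig2 x)]
          exact Finset.sum_congr rfl fun w _ => (congrArg (φ w) (hx w)).symm.trans (hθ w x).symm)
        hu₀ hbz
      obtain ⟨x, hx⟩ := (himg z).mp haz
      refine ⟨B.fromBig2 x, fun w => ?_⟩
      rw [hθ, ← hz w]
      exact congrArg (φ w) (hx w)
    · exact ⟨0, fun w => (hemp ⟨w⟩).elim⟩
  · obtain ⟨x, rfl⟩ := B.fromBig1_bijective.2 x
    refine (congrArg B.fromBig1 (hinj1 x fun w => (B.fromLocal1_bijective inv w).1 ?_)).trans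
      (map_zero _)
    exact ((B.locN1_fromBig1 inv w x).symm.trans (hx w)).trans (map_zero (B.fromLocal1 inv w)).symm

include hp hpS hclass hloc hne hrec in
/-- The datum is valid as soon as `H²` is right exact. -/
theorem valid (hR : RightExact2 p B.lev B.bigN) : (B.datum inv).Valid where
  rightExact := hR
  loc_rightExact := hloc
  invCores_bijective := B.invCores_bijective_of inv hloc hne
  reciprocity := hrec
  theta_injective := (B.theta_spec inv hp hpS hclass hloc hne hrec).1
  theta_surjective := (B.theta_spec inv hp hpS hclass hloc hne hrec).2.1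
  locN1_injective := (B.theta_spec inv hp hpS hclass hloc hne hrec).2.2
  nonempty := by
    obtain ⟨A, hA⟩ := FermatAgent.RT.exists_liesOverPrime (ExtCitation.pPrime p).2
    obtain ⟨i, -, -⟩ := B.exhausts _ hpS A hA
    exact ⟨i⟩

end FieldSetup

end

end FermatAgent.Duality
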