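import Fermat.Agent.Duality.Instance.Fields
import Fermat.Agent.Duality.Core.RightExact
import Fermat.Agent.Duality.Local.Main

/-!
# Right exactness of `H²` of decomposition groups
-/

set_option autoImplicit false

namespace FermatAgent.Duality

noncomputable section

local notation "Qb" => AlgebraicClosure ℚ
local notation "GQ" => AlgebraicClosure ℚ ≃ₐ[ℚ] AlgebraicClosure ℚ

attribute [local instance] FermatAgent.RT.isGalois_algClosureRat

variable {p : ℕ} [Fact p.Prime] {ℓ : ℕ}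

open FermatAgent.Duality.Local in
/-- Corestriction along a step of index `p` inside a local group containing `μ_p`. -/
theorem coresSurjective_local (C : LocalCtx p ℓ) (H H' : Subgroup GQ) (hH'H : H' ≤ H)
    (hHD : H ≤ C.D) (hn : (H'.subgroupOf H).Normal) (hidx : H'.relIndex H = p)
    [hi : Fintype (H ⧸ H'.subgroupOf H)] (hopen : ∃ V ∈ qLevels.lev, V ⊓ C.D ≤ H')
    (hl : ∃ V ∈ (qLevels.comap H.subtype).lev, V ≤ H'.subgroupOf H) :
    CoresSurjective (p := p) (H'.subgroupOf H) (qLevels.comap H.subtype) hl := by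
  obtain ⟨_, ⟨F, hF, rfl⟩, hFle⟩ := hopen
  have hH : OpenSub H C.D := ⟨hHD, F, hF, fun x hx => hH'H (hFle ⟨hx.2, hx.1⟩)⟩
  obtain ⟨C', hC'⟩ := LocalCtx.exists_ctx_of_openSub C hH
  subst hC'
  obtain ⟨f, hfm, hf0, s, hs⟩ := exists_zmod_character (H'.subgroupOf C'.D) hidx
  have hlev : IsLev₁ (subLevels C'.D) f := by
    refine ⟨_, ⟨_, ⟨F, hF, rfl⟩, rfl⟩, fun g x hx => ?_⟩
    rw [hfm, (hf0 x).mpr (hFle ⟨hx, hHD x.2⟩), add_zero]
  let χ : Z1 (subLevels C'.D) (triv (ZMod p) C'.D) := ⟨f, hlev, fun a b => by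
    show f (a * b) = f b + f a
    rw [hfm, add_comm]⟩
  have h : OpenSub H' C'.D := ⟨hH'H, F, hF, fun x hx => hFle ⟨hx.2, hHD hx.1⟩⟩
  have hsurj := LocalCtx.corL2_surjective_of_chi C' h (χ := χ) (s := s) hs (fun x => hf0 x)
  intro z
  obtain ⟨w, hw⟩ := hsurj z
  refine ⟨h.toSub2 p w, ?_⟩
  rw [← hw]
  have := h.finiteIndex
  obtain rfl : hi = Fintype.ofFinite _ := Subsingleton.elim _ _
  rfl

/-- `H²` of a decomposition group is right exact on modules trivial on an open normal subgroup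
of a field containing `μ_p`. -/
theorem rightExact2_decomposition (hℓ : ℓ.Prime) (L : IntermediateField ℚ Qb)
    [FiniteDimensional ℚ L] [L.fixingSubgroup.Normal] (hL : ContainsMuP p L)
    {A : ValuationSubring Qb} (hA : A.LiesOverPrime ℓ) :
    RightExact2 p (subLevels (A.decompositionSubgroup ℚ))
      (L.fixingSubgroup.subgroupOf (A.decompositionSubgroup ℚ)) := by
  set D := A.decompositionSubgroup ℚ with hD
  set N := L.fixingSubgroup with hN
  have := finiteIndex_fixingSubgroup L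
  have : (N.subgroupOf D).FiniteIndex := inferInstance
  have : Finite (D ⧸ N.subgroupOf D) := Subgroup.finite_quotient_of_finiteIndex
  let P : Sylow p (D ⧸ N.subgroupOf D) := default
  let U : Subgroup D := (P : Subgroup (D ⧸ N.subgroupOf D)).comap (QuotientGroup.mk' (N.subgroupOf D))
  have hNU : N.subgroupOf D ≤ U := fun x hx => by
    show ((x : D) : D ⧸ N.subgroupOf D) ∈ (P : Subgroup (D ⧸ N.subgroupOf D))
    rw [(QuotientGroup.eq_one_iff x).mpr hx]
    exact one_mem _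
  have : U.FiniteIndex := Subgroup.finiteIndex_of_le hNU
  let : Fintype (D ⧸ U) := Subgroup.fintypeQuotientOfFiniteIndex
  have hlN : ∃ V ∈ (subLevels D).lev, V ≤ N.subgroupOf D :=
    ⟨_, ⟨_, ⟨L, inferInstance, rfl⟩, rfl⟩, fun x hx => hx⟩
  obtain ⟨V, hV, hVN⟩ := hlN
  refine rightExact2_of_index (subLevels D) (N.subgroupOf D) U ⟨V, hV, hVN.trans hNU⟩ ?_ ?_
  · rw [← Nat.card_eq_fintype_card, ← Subgroup.index_eq_card,
      Subgroup.index_comap_of_surjective _ (QuotientGroup.mk'_surjective _)]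
    exact P.not_dvd_index
  let U₁ : Subgroup GQ := U.map D.subtype
  have hU₁D : U₁ ≤ D := Subgroup.map_subtype_le _
  have hpow : ∀ x ∈ U₁, ∃ k, x ^ p ^ k ∈ N := by
    rintro _ ⟨x, hx, rfl⟩
    obtain ⟨k, hk⟩ := P.isPGroup' ⟨QuotientGroup.mk' (N.subgroupOf D) x, hx⟩
    refine ⟨k, ?_⟩
    have h1 : ((x ^ p ^ k : D) : D ⧸ N.subgroupOf D) = 1 := congrArg Subtype.val hk
    have h2 := (QuotientGroup.eq_one_iff (x ^ p ^ k : D)).mp h1
    exact h2
  let N₁ : Subgroup GQ := N ⊓ D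
  have hN₁U : N₁ ≤ U₁ := fun x hx => ⟨⟨x, hx.2⟩, hNU hx.1, rfl⟩
  have hn₁ : (N₁.subgroupOf U₁).Normal := ⟨fun x hx g => ⟨
    (inferInstance : N.Normal).conj_mem _ hx.1 _,
    hU₁D (g * x * g⁻¹).2⟩⟩
  have hp₁ : IsPGroup p (U₁ ⧸ N₁.subgroupOf U₁) := by
    intro c
    obtain ⟨x, rfl⟩ := QuotientGroup.mk_surjective c
    obtain ⟨k, hk⟩ := hpow x x.2
    exact ⟨k, (QuotientGroup.eq_one_iff _).mpr
      (show ((x ^ p ^ k : U₁) : GQ) ∈ N₁ from ⟨hk, hU₁D (x ^ p ^ k : U₁).2⟩)⟩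
  obtain ⟨K, -, hKfd, hK⟩ := exists_field_of_fixingSubgroup_le (F := L) (H := U₁ ⊔ N) le_sup_right
  have hKμ : ContainsMuP p K := by
    intro σ hσ
    rw [hK] at hσ
    refine (show U₁ ⊔ N ≤ (ExtCitation.cycloChar p).ker from sup_le (fun x hx => ?_)
      (fun x hx => hL x hx)) hσ
    obtain ⟨k, hk⟩ := hpow x hx
    exact eq_one_of_pow_prime_pow _ (hL _ hk)
  obtain ⟨C, hCK, hCA⟩ := Local.exists_localCtx (p := p) hℓ K hKμ hA
  have hU₁C : U₁ ≤ C.D := fun x hx => ⟨by rw [hCK, hK]; exact Subgroup.mem_sup_left hx,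
    by rw [hCA]; exact hU₁D hx⟩
  have hlev : ∃ W ∈ qLevels.lev, W ⊓ U₁ ≤ N₁ :=
    ⟨N, ⟨L, inferInstance, rfl⟩, fun x hx => ⟨hx.1, hU₁D hx.2⟩⟩
  have hmain : RightExact2 p (qLevels.comap U₁.subtype) (N₁.subgroupOf U₁) :=
    rightExact2_sub qLevels N₁ U₁ hN₁U hlev hp₁ fun H H' hN' hH'H hHU hn hidx _ hl =>
      coresSurjective_local C H H' hH'H (hHU.trans hU₁C) hn hidx
        ⟨N, ⟨L, inferInstance, rfl⟩, fun x hx => hN' ⟨hx.1, by
          have h2 : x ∈ A.decompositionSubgroup ℚ := hCA ▸ hx.2.2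
          exact h2⟩⟩ hl
  refine RightExact2.of_equiv (Subgroup.equivMapOfInjective U D.subtype D.subtype_injective)
    ?_ ?_ ?_ hmain
  · rintro _ ⟨W, hW, rfl⟩
    exact ⟨_, ⟨_, ⟨W, hW, rfl⟩, rfl⟩, fun x hx => hx⟩
  · rintro _ ⟨_, ⟨W, hW, rfl⟩, rfl⟩
    refine ⟨_, ⟨W, hW, rfl⟩, fun x hx => ?_⟩
    obtain ⟨y, rfl⟩ := (Subgroup.equivMapOfInjective U D.subtype D.subtype_injective).surjective x
    show (((Subgroup.equivMapOfInjective U D.subtype D.subtype_injective).symm _ : U) : D).1 ∈ W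
    rw [MulEquiv.symm_apply_apply]
    exact hx
  · intro g hg
    obtain ⟨y, rfl⟩ := (Subgroup.equivMapOfInjective U D.subtype D.subtype_injective).surjective g
    rw [MulEquiv.symm_apply_apply]
    exact hg.1

end

end FermatAgent.Duality
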