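import Fermat.Agent.Duality.Instance.Builder
import Fermat.Agent.Duality.Instance.Big
import Fermat.Agent.Duality.Instance.LocalExact

/-!
# Field setups over a number field containing `μ_p`, and right exactness of `H²(G_{K,S})`
-/

set_option autoImplicit false

open scoped Pointwise

namespace FermatAgent.Duality

open Module

noncomputable section

local notation "Qb" => AlgebraicClosure ℚ
local notation "GQ" => AlgebraicClosure ℚ ≃ₐ[ℚ] AlgebraicClosure ℚ

attribute [local instance] FermatAgent.RT.isGalois_algClosureRat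

variable {p : ℕ} [Fact p.Prime]

/-- `H²` of a local group containing `μ_p` is right exact for a splitting field with `p`-group. -/
theorem rightExact2_localGroup {ℓ : ℕ} (hℓ : ℓ.Prime) (K F : IntermediateField ℚ Qb)
    [FiniteDimensional ℚ K] [FiniteDimensional ℚ F] (_hKF : K ≤ F)
    [hn : (F.fixingSubgroup.subgroupOf K.fixingSubgroup).Normal] (hK : ContainsMuP p K)
    (hp : ∀ σ ∈ K.fixingSubgroup, ∃ k, σ ^ p ^ k ∈ F.fixingSubgroup)
    {A : ValuationSubring Qb} (hA : A.LiesOverPrime ℓ) :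
    RightExact2 p (subLevels (localGroup K A)) (F.fixingSubgroup.subgroupOf (localGroup K A)) := by
  obtain ⟨C, hCK, hCA⟩ := Local.exists_localCtx (p := p) hℓ K hK hA
  let U₁ := localGroup K A
  let N₁ : Subgroup GQ := F.fixingSubgroup ⊓ U₁
  have hn₁ : (N₁.subgroupOf U₁).Normal := ⟨fun x hx g => ⟨
    hn.conj_mem ⟨x, x.2.1⟩ hx.1 ⟨g, g.2.1⟩, (g * x * g⁻¹).2⟩⟩
  have e : F.fixingSubgroup.subgroupOf U₁ = N₁.subgroupOf U₁ := by
    ext x
    exact ⟨fun h => ⟨h, x.2⟩, fun h => h.1⟩
  rw [show F.fixingSubgroup.subgroupOf (localGroup K A) = N₁.subgroupOf U₁ from e]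
  have hp₁ : IsPGroup p (U₁ ⧸ N₁.subgroupOf U₁) := by
    intro c
    obtain ⟨x, rfl⟩ := QuotientGroup.mk_surjective c
    obtain ⟨k, hk⟩ := hp x x.2.1
    exact ⟨k, (QuotientGroup.eq_one_iff _).mpr
      (show ((x ^ p ^ k : U₁) : GQ) ∈ N₁ from ⟨hk, (x ^ p ^ k : U₁).2⟩)⟩
  refine rightExact2_sub qLevels N₁ U₁ inf_le_right
    ⟨F.fixingSubgroup, ⟨F, inferInstance, rfl⟩, le_rfl⟩ hp₁
    fun H H' hN' hH'H hHU hn hidx _ hl => ?_
  have hUC : U₁ ≤ C.D := by
    show localGroup K A ≤ localGroup C.K C.A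
    rw [hCK, hCA]
  exact coresSurjective_local C H H' hH'H (hHU.trans hUC) hn hidx
    ⟨F.fixingSubgroup, ⟨F, inferInstance, rfl⟩, fun x hx => hN' ⟨hx.1, by
      have h2 : x ∈ localGroup C.K C.A := hx.2
      rwa [hCK, hCA] at h2⟩⟩ hl

namespace FieldSetup

variable {S : Finset Nat.Primes} (K F : IntermediateField ℚ Qb)
  [FiniteDimensional ℚ F] (hKF : K ≤ F) [(F.fixingSubgroup.subgroupOf K.fixingSubgroup).Normal]
  (hF : F.IsUnramifiedOutside S) (hK : ContainsMuP p K) (P : PlaceSystem K S)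

/-- The setup of a number field containing `μ_p` with a system of places. -/
def ofSystem : FieldSetup p K.fixingSubgroup S where
  j := K.fixingSubgroup.subtype
  j_injective := Subtype.val_injective
  ι := P.ι
  prime := P.prime
  place := P.place
  prime_mem := P.prime_mem
  liesOver := P.liesOver
  exhausts := fun q hq A hA => by
    obtain ⟨i, hi, g, hg, e⟩ := P.exhausts q hq A hA
    exact ⟨i, hi, ⟨g, hg⟩, e⟩
  inj := fun i k g e => P.inj i k g g.2 e
  F := F
  le_range := by
    rw [Subgroup.range_subtype]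
    exact IntermediateField.fixingSubgroup_antitone hKF
  unramified := hF
  containsMuP := fun σ hσ => hK σ (IntermediateField.fixingSubgroup_antitone hKF hσ)
  normal := inferInstanceAs (F.fixingSubgroup.subgroupOf K.fixingSubgroup).Normal

/-- The local group at a place as the decomposition group of the setup. -/
def toDec (i : P.ι) : localGroup K (P.place i) →* (ofSystem K F hKF hF hK P).dec i where
  toFun d := ⟨⟨d.1, d.2.1⟩, d.2.2⟩
  map_one' := rfl
  map_mul' _ _ := rfl

/-- The decomposition group of the setup as the local group at a place. -/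
def ofDec (i : P.ι) : (ofSystem K F hKF hF hK P).dec i →* localGroup K (P.place i) where
  toFun d := ⟨d.1.1, d.1.2, d.2⟩
  map_one' := rfl
  map_mul' _ _ := rfl

lemma isLevHom_toDec (i : P.ι) : IsLevHom (localLevels K (P.place i))
    ((ofSystem K F hKF hF hK P).decLev i) (toDec K F hKF hF hK P i) := by
  rintro _ ⟨U, hU, rfl⟩
  exact ⟨_, ⟨U, hU, rfl⟩, fun d hd => hd⟩

lemma isLevHom_ofDec (i : P.ι) : IsLevHom ((ofSystem K F hKF hF hK P).decLev i)
    (localLevels K (P.place i)) (ofDec K F hKF hF hK P i) := by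
  rintro _ ⟨U, hU, rfl⟩
  exact ⟨_, ⟨U, hU, rfl⟩, fun d hd => hd⟩

lemma equiv_toDec (i : P.ι) :
    IsEquivariant ((cyc (ofSystem K F hKF hF hK P).chi).comp
        ((ofSystem K F hKF hF hK P).dec i).subtype)
      (triv (ZMod p) (localGroup K (P.place i))) (toDec K F hKF hF hK P i) LinearMap.id :=
  fun d x => by
    show (ExtCitation.cycloChar p (d : GQ) : ZMod p) * x = x
    rw [hK _ d.2.1, Units.val_one, one_mul]

/-- Functionals on the local groups as functionals of the setup. -/
def invOf (inv : LocalFunctionals (p := p) P) :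
    ∀ i, H2c ((ofSystem K F hKF hF hK P).decLev i)
      ((cyc (ofSystem K F hKF hF hK P).chi).comp ((ofSystem K F hKF hF hK P).dec i).subtype)
        →ₗ[ZMod p] ZMod p :=
  fun i => inv i ∘ₗ map2 _ _ (isLevHom_toDec K F hKF hF hK P i) (equiv_toDec K F hKF hF hK P i)

lemma invOf_ne_zero {inv : LocalFunctionals (p := p) P} (h : ∀ i, inv i ≠ 0) (i : P.ι) :
    invOf K F hKF hF hK P inv i ≠ 0 := by
  intro h0
  refine h i (LinearMap.ext fun x => ?_)
  obtain ⟨y, rfl⟩ := (map2_bijective (ofDec K F hKF hF hK P i) (fun _ => rfl) (fun _ => rfl)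
    (isLevHom_toDec K F hKF hF hK P i) (equiv_toDec K F hKF hF hK P i) LinearMap.id
    (fun _ => rfl) (fun _ => rfl) (isLevHom_ofDec K F hKF hF hK P i)).2 x
  exact LinearMap.congr_fun h0 y

lemma reciprocity_invOf {inv : LocalFunctionals (p := p) P}
    (himg : ∀ z : ∀ i, localH2 p K (P.place i),
      (∑ i, inv i (z i) = 0) ↔ ∃ x : globalH2 p K S, ∀ i, FermatAgent.Duality.loc2 p K S (P.place i) x = z i)
    (x : H2c (ofSystem K F hKF hF hK P).lev (cyc (ofSystem K F hKF hF hK P).chi)) :
    ∑ i, invOf K F hKF hF hK P inv i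
      (((ofSystem K F hKF hF hK P).datum (invOf K F hKF hF hK P inv)).loc2
        (cyc (ofSystem K F hKF hF hK P).chi) i x) = 0 := by
  have he : IsEquivariant (cyc (ofSystem K F hKF hF hK P).chi) (triv (ZMod p) K.fixingSubgroup)
      (MonoidHom.id K.fixingSubgroup) LinearMap.id := fun g v => by
    show (ExtCitation.cycloChar p (g : GQ) : ZMod p) * v = v
    rw [hK _ g.2, Units.val_one, one_mul]
  let y : globalH2 p K S := map2 _ _ (isLevHom_id (globalLevels K S)) he x
  refine Eq.trans ?_ ((himg fun i => FermatAgent.Duality.loc2 p K S (P.place i) y).mpr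
    ⟨y, fun i => rfl⟩)
  refine Finset.sum_congr rfl fun i _ => congrArg (inv i) ?_
  induction x using Submodule.Quotient.induction_on with
  | _ z => rfl

lemma equiv_toGlobal : IsEquivariant (cyc (ofSystem K F hKF hF hK P).chi)
    (triv (ZMod p) K.fixingSubgroup) (MonoidHom.id K.fixingSubgroup) LinearMap.id := fun g v => by
  show (ExtCitation.cycloChar p (g : GQ) : ZMod p) * v = v
  rw [hK _ g.2, Units.val_one, one_mul]

lemma loc2_toGlobal (inv : LocalFunctionals (p := p) P) (i : P.ι)
    (x : H2c (ofSystem K F hKF hF hK P).lev (cyc (ofSystem K F hKF hF hK P).chi)) :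
    FermatAgent.Duality.loc2 p K S (P.place i)
        (map2 _ _ (isLevHom_id (globalLevels K S)) (equiv_toGlobal K F hKF hF hK P) x) =
      map2 _ _ (isLevHom_toDec K F hKF hF hK P i) (equiv_toDec K F hKF hF hK P i)
        (((ofSystem K F hKF hF hK P).datum (invOf K F hKF hF hK P inv)).loc2
          (cyc (ofSystem K F hKF hF hK P).chi) i x) := by
  induction x using Submodule.Quotient.induction_on with
  | _ a => rfl

lemma eq_of_loc2_eq (inv : LocalFunctionals (p := p) P)
    (hinj : ∀ x : globalH2 p K S,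
      (∀ i, FermatAgent.Duality.loc2 p K S (P.place i) x = 0) → x = 0)
    (x y : H2c (ofSystem K F hKF hF hK P).lev (cyc (ofSystem K F hKF hF hK P).chi))
    (h : ∀ i,
      ((ofSystem K F hKF hF hK P).datum (invOf K F hKF hF hK P inv)).loc2
          (cyc (ofSystem K F hKF hF hK P).chi) i x =
        ((ofSystem K F hKF hF hK P).datum (invOf K F hKF hF hK P inv)).loc2
          (cyc (ofSystem K F hKF hF hK P).chi) i y) : x = y := by
  refine (map2_bijective (MonoidHom.id K.fixingSubgroup) (fun _ => rfl) (fun _ => rfl)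
      (isLevHom_id (globalLevels K S)) (equiv_toGlobal K F hKF hF hK P) LinearMap.id
      (fun _ => rfl) (fun _ => rfl) (isLevHom_id (globalLevels K S))).1 ?_
  refine sub_eq_zero.mp (hinj _ fun i => ?_)
  rw [map_sub, sub_eq_zero, loc2_toGlobal K F hKF hF hK P inv i x,
    loc2_toGlobal K F hKF hF hK P inv i y, h i]

lemma hloc_ofSystem [FiniteDimensional ℚ K]
    (hp : ∀ σ ∈ K.fixingSubgroup, ∃ k, σ ^ p ^ k ∈ F.fixingSubgroup) (i : P.ι) :
    RightExact2 p ((ofSystem K F hKF hF hK P).decLev i)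
      ((ofSystem K F hKF hF hK P).bigN.subgroupOf ((ofSystem K F hKF hF hK P).dec i)) :=
  RightExact2.of_equiv
    { ofDec K F hKF hF hK P i with
      invFun := toDec K F hKF hF hK P i
      left_inv := fun _ => rfl
      right_inv := fun _ => rfl }
    (isLevHom_ofDec K F hKF hF hK P i) (isLevHom_toDec K F hKF hF hK P i) (fun _ h => h)
    (rightExact2_localGroup (P.prime i).2 K F hKF hK hp (P.liesOver i))

end FieldSetup

set_option maxHeartbeats 800000 in
open FieldSetup in
/-- Corestriction along a step of index `p` between fields containing `μ_p` inside `L`. -/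
theorem coresSurjective_global (hp2 : p ≠ 2) {L : IntermediateField ℚ Qb} [FiniteDimensional ℚ L]
    {S : Finset Nat.Primes} (hS : BigFor p L S) (H H' : Subgroup GQ)
    (hLH' : L.fixingSubgroup ≤ H') (hH'H : H' ≤ H)
    (hH : ∀ σ ∈ H, ExtCitation.cycloChar p σ = 1) (hn : (H'.subgroupOf H).Normal)
    (hidx : H'.relIndex H = p) [hi : Fintype (H ⧸ H'.subgroupOf H)]
    (hl : ∃ V ∈ ((sLevels S).comap H.subtype).lev, V ≤ H'.subgroupOf H) :
    CoresSurjective (p := p) (H'.subgroupOf H) ((sLevels S).comap H.subtype) hl := by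
  classical
  obtain ⟨F, hFL, hFfd, rfl⟩ := exists_field_of_fixingSubgroup_le hLH'
  obtain ⟨K, hKL, hKfd, rfl⟩ := exists_field_of_fixingSubgroup_le (hLH'.trans hH'H)
  have hKF : K ≤ F := by
    rw [← InfiniteGalois.fixedField_fixingSubgroup K, ← InfiniteGalois.fixedField_fixingSubgroup F]
    exact IntermediateField.fixedField_antitone hH'H
  have hpow : ∀ σ ∈ K.fixingSubgroup, ∃ k, σ ^ p ^ k ∈ F.fixingSubgroup := fun σ hσ => by
    refine ⟨1, ?_⟩
    rw [pow_one]
    have h := Subgroup.pow_index_mem (F.fixingSubgroup.subgroupOf K.fixingSubgroup) ⟨σ, hσ⟩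
    rw [show (F.fixingSubgroup.subgroupOf K.fixingSubgroup).index = p from hidx] at h
    exact h
  have hFS := hS.unramified.of_le hFL
  obtain ⟨P⟩ := Euler.nonempty_placeSystem K S
  obtain ⟨inv, hne, -, hinj2, himg, -⟩ := exists_globalDuality p K S hp2 hH
    (hS.unramified.of_le hKL) hS.p_mem (hS.classGroup K hKL hH) P
  let B := ofSystem K F hKF hFS hH P
  let D := B.datum (invOf K F hKF hFS hH P inv)
  have hspec := B.theta_spec (invOf K F hKF hFS hH P inv) hp2 hS.p_mem
    (hS.classGroup F hFL B.containsMuP) (hloc_ofSystem K F hKF hFS hH P hpow)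
    (invOf_ne_zero K F hKF hFS hH P hne) (reciprocity_invOf K F hKF hFS hH P himg)
  have hbij := B.invCores_bijective_of (invOf K F hKF hFS hH P inv)
    (hloc_ofSystem K F hKF hFS hH P hpow) (invOf_ne_zero K F hKF hFS hH P hne)
  have ht : IsEquivariant (triv (ZMod p) K.fixingSubgroup) (cyc B.chi)
      (MonoidHom.id K.fixingSubgroup) LinearMap.id := fun g v => by
    show v = (ExtCitation.cycloChar p (g : GQ) : ZMod p) * v
    rw [hH _ g.2, Units.val_one, one_mul]
  have ht' : IsEquivariant (cyc B.chi) (triv (ZMod p) K.fixingSubgroup)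
      (MonoidHom.id K.fixingSubgroup) LinearMap.id := fun g v => by
    show (ExtCitation.cycloChar p (g : GQ) : ZMod p) * v = v
    rw [hH _ g.2, Units.val_one, one_mul]
  intro z
  let z' : H2c B.lev (cyc B.chi) := map2 _ _ (isLevHom_id (globalLevels K S)) ht z
  have htriv : ∀ i, TrivialOn (D.Ni i) ((cyc B.chi).comp (B.dec i).subtype) :=
    fun i d hd m => cyc_trivial B.bigN B.chi (fun _ hn => B.containsMuP _ hn) ⟨(d : B.dec i).1, hd⟩ m
  choose u hu using fun i => cores2_surjective (D.locLev i) (D.Ni i) (D.loc_level_le i)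
    (hloc_ofSystem K F hKF hFS hH P hpow i) (htriv i) (D.loc2 (cyc B.chi) i z')
  let Φ := fun i => invCores (D.locLev i) (D.Ni i) (D.loc_level_le i) (D.χ.comp (D.D i).subtype)
    (D.inv i)
  let t : D.W → ZMod p := fun w => if w.2 = baseCoset _ then Φ w.1 (u w.1) else 0
  have hsum : ∑ w, t w = 0 := by
    rw [← reciprocity_invOf K F hKF hFS hH P himg z', Fintype.sum_sigma]
    refine Finset.sum_congr rfl fun i _ => ?_
    rw [Finset.sum_eq_single (baseCoset _) (fun c _ hc => if_neg hc) (by simp)]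
    exact (if_pos rfl).trans (congrArg (D.inv i) (hu i))
  obtain ⟨y, hy⟩ := hspec.2.1 t hsum
  have hcores : cores2 D.N (cyc B.chi) D.L D.level_le y = z' := by
    have h0 : ∀ i, D.loc2 (cyc B.chi) i (cores2 D.N (cyc B.chi) D.L D.level_le y) =
        D.loc2 (cyc B.chi) i z' := fun i => by
      rw [D.loc2_cores2 (cyc B.chi) i y, Finset.sum_eq_single (baseCoset _)]
      · refine (congrArg _ ((hbij i).1 ?_)).trans (hu i)
        exact (hy ⟨i, baseCoset _⟩).trans (if_pos rfl)
      · intro c _ hc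
        refine (congrArg _ ((hbij i).1 ?_)).trans (map_zero _)
        exact ((hy ⟨i, c⟩).trans (if_neg hc)).trans (map_zero (Φ i)).symm
      · simp
    exact eq_of_loc2_eq K F hKF hFS hH P inv hinj2 _ _ h0
  refine ⟨map2 _ _ (isLevHom_id _)
    (isEquivariant_sub (F.fixingSubgroup.subgroupOf K.fixingSubgroup) ht') y, ?_⟩
  obtain rfl : hi = D.fintypeQuot := Subsingleton.elim _ _
  let : Fintype (K.fixingSubgroup ⧸ F.fixingSubgroup.subgroupOf K.fixingSubgroup) := D.fintypeQuot
  refine (cores2_map2 (F.fixingSubgroup.subgroupOf K.fixingSubgroup) (globalLevels K S) hl ht' y).trans ?_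
  refine (congrArg (map2 _ _ (isLevHom_id (globalLevels K S)) ht') hcores).trans ?_
  induction z using Submodule.Quotient.induction_on with
  | _ a => rfl

/-- Right exactness of `H²(G_{K,S})` for a field `K ∋ μ_p` with `p`-group splitting field `L`. -/
theorem rightExact2_field (hp2 : p ≠ 2) {L : IntermediateField ℚ Qb} [FiniteDimensional ℚ L]
    {S : Finset Nat.Primes} (hS : BigFor p L S) (U : Subgroup GQ) (hLU : L.fixingSubgroup ≤ U)
    [(L.fixingSubgroup.subgroupOf U).Normal] (hU : ∀ σ ∈ U, ExtCitation.cycloChar p σ = 1)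
    (hp : IsPGroup p (U ⧸ L.fixingSubgroup.subgroupOf U)) :
    RightExact2 p ((sLevels S).comap U.subtype) (L.fixingSubgroup.subgroupOf U) :=
  rightExact2_sub (sLevels S) L.fixingSubgroup U hLU
    ⟨_, ⟨L, hS.unramified, rfl⟩, inf_le_left⟩ hp
    fun H H' hN' hH'H hHU hn hidx _ hl =>
      coresSurjective_global hp2 hS H H' hN' hH'H (fun σ hσ => hU σ (hHU hσ)) hn hidx hl

/-- Right exactness of `H²(G_{ℚ,S})`. -/
theorem rightExact2_sLevels (hp2 : p ≠ 2) {L : IntermediateField ℚ Qb} [FiniteDimensional ℚ L]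
    [L.fixingSubgroup.Normal] (hL : ContainsMuP p L) {S : Finset Nat.Primes} (hS : BigFor p L S) :
    RightExact2 p (sLevels S) L.fixingSubgroup := by
  set N := L.fixingSubgroup with hN
  have := finiteIndex_fixingSubgroup L
  have : Finite (GQ ⧸ N) := Subgroup.finite_quotient_of_finiteIndex
  let P : Sylow p (GQ ⧸ N) := default
  let U : Subgroup GQ := (P : Subgroup (GQ ⧸ N)).comap (QuotientGroup.mk' N)
  have hNU : N ≤ U := fun x hx => by
    show ((x : GQ) : GQ ⧸ N) ∈ (P : Subgroup (GQ ⧸ N))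
    rw [(QuotientGroup.eq_one_iff x).mpr hx]
    exact one_mem _
  have : U.FiniteIndex := Subgroup.finiteIndex_of_le hNU
  let : Fintype (GQ ⧸ U) := Subgroup.fintypeQuotientOfFiniteIndex
  have hpow : ∀ x ∈ U, ∃ k, x ^ p ^ k ∈ N := fun x hx => by
    obtain ⟨k, hk⟩ := P.isPGroup' ⟨QuotientGroup.mk' N x, hx⟩
    exact ⟨k, (QuotientGroup.eq_one_iff _).mp
      (show ((x ^ p ^ k : GQ) : GQ ⧸ N) = 1 from congrArg Subtype.val hk)⟩
  refine rightExact2_of_index (sLevels S) N U ⟨N, ⟨L, hS.unramified, rfl⟩, hNU⟩ ?_ ?_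
  · rw [← Nat.card_eq_fintype_card, ← Subgroup.index_eq_card,
      Subgroup.index_comap_of_surjective _ (QuotientGroup.mk'_surjective _)]
    exact P.not_dvd_index
  have hn : (N.subgroupOf U).Normal := (inferInstance : N.Normal).subgroupOf U
  refine rightExact2_field hp2 hS U hNU (fun σ hσ => ?_) ?_
  · obtain ⟨k, hk⟩ := hpow σ hσ
    exact eq_one_of_pow_prime_pow _ (hL _ hk)
  · intro c
    obtain ⟨x, rfl⟩ := QuotientGroup.mk_surjective c
    obtain ⟨k, hk⟩ := hpow x x.2
    exact ⟨k, (QuotientGroup.eq_one_iff _).mpr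
      (show ((x ^ p ^ k : U) : GQ) ∈ N from hk)⟩

end

end FermatAgent.Duality
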