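import Fermat.Agent.Duality.Instance.UnrPerp
import Fermat.Agent.Duality.Bridge.Sha
import Fermat.Agent.TW.Places

/-!
# Classes unramified outside a smaller set of primes
-/

set_option autoImplicit false

open scoped Pointwise

namespace FermatAgent.Duality

open Module

noncomputable section

local notation "Qb" => AlgebraicClosure ℚ
local notation "GQ" => AlgebraicClosure ℚ ≃ₐ[ℚ] AlgebraicClosure ℚ

attribute [local instance] FermatAgent.RT.isGalois_algClosureRat

variable {p : ℕ} [Fact p.Prime] {T S : Finset Nat.Primes}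

lemma isLevHom_inflS (h : T ⊆ S) : IsLevHom (sLevels S) (sLevels T) (MonoidHom.id GQ) := by
  rintro _ ⟨F, hF, rfl⟩
  exact ⟨_, ⟨F, hF.mono h, rfl⟩, fun _ hx => hx⟩

variable {M : Type} [AddCommGroup M] [Module (ZMod p) M] (ρ : Representation (ZMod p) GQ M)

/-- Inflation to a larger set of primes. -/
def inflS1 (h : T ⊆ S) : H1c (sLevels T) ρ →ₗ[ZMod p] H1c (sLevels S) ρ :=
  map1 (φ := LinearMap.id) ρ ρ (isLevHom_inflS h) (fun _ _ => rfl)

lemma inflS1_injective (h : T ⊆ S) : Function.Injective (inflS1 ρ h) := by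
  refine (injective_iff_map_eq_zero _).mpr fun x hx => ?_
  induction x using Submodule.Quotient.induction_on with
  | _ z =>
    obtain ⟨m, hm⟩ := (cl1_eq_zero_iff _ _ _).mp hx
    exact (cl1_eq_zero_iff _ _ _).mpr ⟨m, hm⟩

lemma decRes1_inflS1 (h : T ⊆ S) (A : ValuationSubring Qb) (x : H1c (sLevels T) ρ) :
    decRes1 S ρ A (inflS1 ρ h x) = decRes1 T ρ A x := by
  induction x using Submodule.Quotient.induction_on with
  | _ z => rfl

/-- Classes inflated from a smaller set are unramified at the new primes. -/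
theorem decRes1_mem_decUnr {q : Nat.Primes} (hq : q ∉ T) {A : ValuationSubring Qb}
    (hA : A.LiesOverPrime (q : ℕ)) {L : IntermediateField ℚ Qb}
    (hI : A.inertiaSubgroupIn ℚ ≤ L.fixingSubgroup) (hρ : TrivialOn L.fixingSubgroup ρ)
    (x : H1c (sLevels T) ρ) :
    decRes1 T ρ A x ∈ decUnr (ρ.comp (A.decompositionSubgroup ℚ).subtype) := by
  induction x using Submodule.Quotient.induction_on with
  | _ z =>
    refine (cl1_mem_decUnr_iff _ hI (fun d hd m => hρ _ hd m) _).mpr fun i hi => ?_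
    show z.1 (i : GQ) = 0
    obtain ⟨_, ⟨F, hF, rfl⟩, hlev⟩ := z.2.1
    have h1 := hlev 1 _ (hF.2 q hq A hA hi)
    rw [one_mul] at h1
    have h2 := z.2.2 1 1
    simp only [mul_one, map_one, Module.End.one_apply] at h2
    exact h1.trans (left_eq_add.mp h2)

/-- A class unramified at the new primes is inflated from the smaller set. -/
theorem exists_inflS1_eq (h : T ⊆ S) {L : IntermediateField ℚ Qb} (hL : L.IsUnramifiedOutside T)
    (hρ : TrivialOn L.fixingSubgroup ρ) (A : Nat.Primes → ValuationSubring Qb)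
    (hA : ∀ q, (A q).LiesOverPrime (q : ℕ)) (y : H1c (sLevels S) ρ)
    (hy : ∀ q ∈ S, q ∉ T →
      decRes1 S ρ (A q) y ∈ decUnr (ρ.comp ((A q).decompositionSubgroup ℚ).subtype)) :
    ∃ x : H1c (sLevels T) ρ, inflS1 ρ h x = y := by
  induction y using Submodule.Quotient.induction_on with
  | _ z =>
  have := hL.1
  have hone : z.1 1 = 0 := by
    have h2 := z.2.2 1 1
    simp only [mul_one, map_one, Module.End.one_apply] at h2
    exact left_eq_add.mp h2
  obtain ⟨_, ⟨F, hF, rfl⟩, hlev⟩ := z.2.1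
  have := hF.1
  let H : Subgroup GQ :=
    { carrier := {g | g ∈ L.fixingSubgroup ∧ z.1 g = 0}
      one_mem' := ⟨one_mem _, hone⟩
      mul_mem' := fun {a b} ha hb => ⟨mul_mem ha.1 hb.1, by
        rw [z.2.2, hb.2, ha.2, map_zero, zero_add]⟩
      inv_mem' := fun {a} ha => ⟨inv_mem ha.1, by
        have h2 := z.2.2 a⁻¹ a
        rw [inv_mul_cancel, ha.2, map_zero, zero_add, hone] at h2
        exact h2.symm⟩ }
  have : FiniteDimensional ℚ (F ⊔ L : IntermediateField ℚ Qb) :=
    IntermediateField.finiteDimensional_sup F L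
  have hle : (F ⊔ L : IntermediateField ℚ Qb).fixingSubgroup ≤ H := fun g hg => by
    rw [IntermediateField.fixingSubgroup_sup] at hg
    refine ⟨hg.2, ?_⟩
    have h1 := hlev 1 g hg.1
    rw [one_mul, hone] at h1
    exact h1
  obtain ⟨F', -, hF'fd, hF'⟩ := exists_field_of_fixingSubgroup_le hle
  have hIq : ∀ q ∈ S, q ∉ T → ∀ i ∈ (A q).inertiaSubgroupIn ℚ, z.1 i = 0 := fun q hqS hq i hi =>
    (cl1_mem_decUnr_iff _ (hL.2 q hq (A q) (hA q)) (fun d hd m => hρ _ hd m) _).mp (hy q hqS hq)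
      ⟨i, FermatAgent.Local.mem_decomposition_of_inertia hi⟩ hi
  have hunr : F'.IsUnramifiedOutside T := by
    refine ⟨hF'fd, fun q hq B hB i hi => ?_⟩
    rw [hF']
    refine ⟨hL.2 q hq B hB hi, ?_⟩
    by_cases hqS : q ∈ S
    · obtain ⟨g, rfl⟩ := TW.exists_smul_eq q.2 (hA q) hB
      have hi' := conj_mem_inertia g hi
      have h0 := hIq q hqS hq _ hi'
      have e1 := z.2.2 g (g⁻¹ * i * g)
      have e2 := z.2.2 i g
      rw [show g * (g⁻¹ * i * g) = i * g by group, h0, map_zero, zero_add, e2,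
        hρ i (hL.2 q hq _ hB hi)] at e1
      exact left_eq_add.mp (e1.symm.trans (add_comm _ _) |>.trans (add_comm _ _))
    · have h1 := hlev 1 i (hF.2 q hqS B hB hi)
      rw [one_mul, hone] at h1
      exact h1
  have hlev' : IsLev₁ (sLevels T) z.1 := by
    refine ⟨_, ⟨F', hunr, rfl⟩, fun g s hs => ?_⟩
    rw [hF'] at hs
    rw [z.2.2, hs.2, map_zero, zero_add]
  exact ⟨cl1 (sLevels T) ρ ⟨z.1, hlev', z.2.2⟩, rfl⟩

end

end FermatAgent.Duality
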