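import Fermat.Agent.Duality.Instance.LocalPair
import Fermat.Agent.Duality.Euler.Additive

/-!
# The local Euler characteristic on modules induced from the splitting field

It is additive and equals `-dim` at `p` and `0` elsewhere on the modules `G ⧸ N → M`.
-/

set_option autoImplicit false

namespace FermatAgent.Duality

open Module

noncomputable section

local notation "Qb" => AlgebraicClosure ℚ
local notation "GQ" => AlgebraicClosure ℚ ≃ₐ[ℚ] AlgebraicClosure ℚ

attribute [local instance] FermatAgent.RT.isGalois_algClosureRat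

variable {p : ℕ} [Fact p.Prime]

section Generic

variable {G : Type} [Group G] {LG : LevelSystem G}
variable {M M' : Type} [AddCommGroup M] [Module (ZMod p) M] [AddCommGroup M'] [Module (ZMod p) M']
  {ρ : Representation (ZMod p) G M} {ρ' : Representation (ZMod p) G M'}

/-- Isomorphic coefficients have the same Euler characteristic. -/
lemma eulerChar_congr (e : M ≃ₗ[ZMod p] M') (he : ∀ g m, e (ρ g m) = ρ' g (e m)) :
    eulerChar LG ρ = eulerChar LG ρ' := by
  rw [eulerChar, eulerChar, (Euler.h0Equiv e he).finrank_eq,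
    (Euler.h1Equiv (LG := LG) e he).finrank_eq, (Euler.h2Equiv (LG := LG) e he).finrank_eq]

/-- The Euler characteristic of an induced module is that of the subgroup. -/
lemma eulerChar_indRep (U : Subgroup G) [Fintype (G ⧸ U)] (hU : ∃ V ∈ LG.lev, V ≤ U) :
    eulerChar LG (indRep U ρ) = eulerChar (LG.comap U.subtype) (ρ.comp U.subtype) := by
  rw [eulerChar, eulerChar, (LinearEquiv.ofBijective _ (shapiro0_bijective U ρ)).finrank_eq,
    (LinearEquiv.ofBijective _ (shapiro1_bijective U ρ LG hU)).finrank_eq,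
    (LinearEquiv.ofBijective _ (shapiro2_bijective U ρ LG hU)).finrank_eq]

variable (D N : Subgroup G) [N.Normal]

lemma smul_quot_of_mem {n : G} (hn : n ∈ N) (x : G ⧸ N) : n • x = x := by
  obtain ⟨g, rfl⟩ := QuotientGroup.mk_surjective x
  rw [MulAction.Quotient.smul_mk, smul_eq_mul, QuotientGroup.eq]
  simpa [mul_assoc] using
    (inferInstance : N.Normal).conj_mem _ (N.inv_mem hn) g⁻¹

/-- `D` acts freely on `G ⧸ N` through `D ⧸ D ∩ N`. -/
theorem exists_orbit_equiv [Finite (G ⧸ N)] :
    ∃ (ι : Type) (_ : Fintype ι) (θ : (D ⧸ N.subgroupOf D) × ι ≃ G ⧸ N),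
      ∀ (d : D) (e : D ⧸ N.subgroupOf D) (j : ι), θ (d • e, j) = (d : G) • θ (e, j) := by
  let ι := MulAction.orbitRel.Quotient D (G ⧸ N)
  have : Finite ι := Quotient.finite _
  let x : ι → G ⧸ N := Quotient.out
  let f : (D ⧸ N.subgroupOf D) × ι → G ⧸ N :=
    fun q => ((coresSec (N.subgroupOf D) q.1 : D) : G) • x q.2
  have hmk : ∀ (d : D) (j : ι), f (QuotientGroup.mk d, j) = (d : G) • x j := fun d j => by
    have h : d⁻¹ * coresSec (N.subgroupOf D) (QuotientGroup.mk d) ∈ N.subgroupOf D := by
      rw [← QuotientGroup.eq, mk_coresSec]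
    show ((coresSec (N.subgroupOf D) (QuotientGroup.mk d) : D) : G) • x j = _
    rw [show coresSec (N.subgroupOf D) (QuotientGroup.mk d) =
      d * (d⁻¹ * coresSec (N.subgroupOf D) (QuotientGroup.mk d)) by group, Subgroup.coe_mul,
      mul_smul]
    exact congrArg _ (smul_quot_of_mem N h _)
  have hbij : Function.Bijective f := by
    constructor
    · rintro ⟨a, i⟩ ⟨b, j⟩ h
      obtain ⟨d, rfl⟩ := QuotientGroup.mk_surjective a
      obtain ⟨d', rfl⟩ := QuotientGroup.mk_surjective b
      rw [hmk, hmk] at h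
      have hr : MulAction.orbitRel D (G ⧸ N) (x i) (x j) :=
        ⟨d⁻¹ * d', by
          show ((d⁻¹ * d' : D) : G) • x j = x i
          rw [Subgroup.coe_mul, Subgroup.coe_inv, mul_smul, ← h, inv_smul_smul]⟩
      obtain rfl : i = j := by
        rw [← Quotient.out_eq i, ← Quotient.out_eq j]
        exact Quotient.sound hr
      refine Prod.ext ?_ rfl
      show QuotientGroup.mk d = QuotientGroup.mk d'
      rw [QuotientGroup.eq]
      have hfix : ((d⁻¹ * d' : D) : G) • x i = x i := by
        rw [Subgroup.coe_mul, Subgroup.coe_inv, mul_smul, ← h, inv_smul_smul]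
      obtain ⟨g, hg⟩ := QuotientGroup.mk_surjective (x i)
      rw [← hg, MulAction.Quotient.smul_mk, smul_eq_mul, QuotientGroup.eq] at hfix
      show ((d⁻¹ * d' : D) : G) ∈ N
      have h2 := (inferInstance : N.Normal).conj_mem _ (N.inv_mem hfix) g
      simpa [mul_assoc] using h2
    · intro c
      obtain ⟨d, hd⟩ : MulAction.orbitRel D (G ⧸ N) c (x ⟦c⟧) :=
        Quotient.exact (Quotient.out_eq (⟦c⟧ : ι)).symm
      exact ⟨(QuotientGroup.mk d, ⟦c⟧), (hmk d _).trans hd⟩
  refine ⟨ι, Fintype.ofFinite ι, Equiv.ofBijective f hbij, fun d e j => ?_⟩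
  obtain ⟨d', rfl⟩ := QuotientGroup.mk_surjective e
  show f (d • QuotientGroup.mk d', j) = (d : G) • f (QuotientGroup.mk d', j)
  rw [MulAction.Quotient.smul_mk, hmk, hmk, smul_eq_mul, Subgroup.coe_mul, mul_smul]

end Generic

variable {L : IntermediateField ℚ Qb} [FiniteDimensional ℚ L] [L.fixingSubgroup.Normal]
  {A : ValuationSubring Qb} {ℓ : ℕ} (hℓ : ℓ.Prime) (hA : A.LiesOverPrime ℓ) (hL : ContainsMuP p L)

section Additive

variable {X Y Z : Type} [AddCommGroup X] [Module (ZMod p) X] [AddCommGroup Y] [Module (ZMod p) Y]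
  [AddCommGroup Z] [Module (ZMod p) Z] [FiniteDimensional (ZMod p) Y]
  {σX : Representation (ZMod p) (A.decompositionSubgroup ℚ) X}
  {σY : Representation (ZMod p) (A.decompositionSubgroup ℚ) Y}
  {σZ : Representation (ZMod p) (A.decompositionSubgroup ℚ) Z}

include hℓ hA hL in
/-- The local Euler characteristic is additive. -/
theorem eulerChar_dec_SES (inv : H2c (decLevels A) (cyc (decChi p A)) →ₗ[ZMod p] ZMod p)
    (hinv : inv ≠ 0) (S : SES σX σY σZ) (hY : TrivialOn (decSub L A) σY) :
    eulerChar (decLevels A) σY = eulerChar (decLevels A) σX + eulerChar (decLevels A) σZ := by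
  have : Finite Y := Module.finite_of_finite (ZMod p)
  have : FiniteDimensional (ZMod p) X := Module.Finite.of_injective S.incl S.injective
  have : FiniteDimensional (ZMod p) Z := Module.Finite.of_surjective S.proj S.surjective
  have hX : TrivialOn (decSub L A) σX := fun g hg x => S.injective (by
    rw [S.incl_equiv, hY g hg])
  have hZ : TrivialOn (decSub L A) σZ := fun g hg z => by
    obtain ⟨y, rfl⟩ := S.surjective z
    rw [← S.proj_equiv, hY g hg]
  have := finite_H1_dec hℓ hA hL hX
  have := finite_H1_dec hℓ hA hL hZ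
  have := finite_H2_dec hℓ hA hL inv hinv hX
  have := finite_H2_dec hℓ hA hL inv hinv hZ
  exact (eulerChar_of_SES S (hY.isSmooth _ (exists_level_decSub L A))
    (rightExact2_decomposition hℓ L hL hA σY σZ S.proj S.isEquivariant_proj S.surjective hY)).2.2

end Additive

variable {M : Type} [AddCommGroup M] [Module (ZMod p) M] [FiniteDimensional (ZMod p) M]
  (ρ : Representation (ZMod p) GQ M)

include hℓ hA hL in
/-- The value on the modules induced from the splitting field. -/
theorem eulerChar_dec_indRep [Fintype (GQ ⧸ L.fixingSubgroup)]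
    (hρ : TrivialOn L.fixingSubgroup ρ) :
    eulerChar (decLevels A)
        ((indRep L.fixingSubgroup ρ).comp (A.decompositionSubgroup ℚ).subtype) =
      -((if ℓ = p then finrank (ZMod p) (GQ ⧸ L.fixingSubgroup → M) else 0 : ℕ) : ℤ) := by
  obtain ⟨ι, _, θ, hθ⟩ := exists_orbit_equiv (A.decompositionSubgroup ℚ) L.fixingSubgroup
  let τ : Representation (ZMod p) (A.decompositionSubgroup ℚ) (ι → M) :=
    { toFun := fun d => LinearMap.pi fun j => ρ (d : GQ) ∘ₗ LinearMap.proj j
      map_one' := LinearMap.ext fun f => funext fun j => by simp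
      map_mul' := fun a b => LinearMap.ext fun f => funext fun j => by simp }
  have hτ : TrivialOn (decSub L A) τ := fun d hd f => funext fun j => hρ _ hd (f j)
  let E : (GQ ⧸ L.fixingSubgroup → M) ≃ₗ[ZMod p]
      (A.decompositionSubgroup ℚ ⧸ decSub L A → ι → M) :=
    (LinearEquiv.funCongrLeft (ZMod p) M θ).trans (LinearEquiv.curry (ZMod p) M _ _)
  have hE : ∀ d φ, E ((indRep L.fixingSubgroup ρ).comp (A.decompositionSubgroup ℚ).subtype d φ) =
      indRep (decSub L A) τ d (E φ) := fun d φ => funext fun e => funext fun j => by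
    show ρ (d : GQ) (φ ((d : GQ)⁻¹ • θ (e, j))) = ρ (d : GQ) (φ (θ (d⁻¹ • e, j)))
    rw [hθ, Subgroup.coe_inv]
  rw [eulerChar_congr E hE, eulerChar_indRep _ (exists_level_decSub L A)]
  have hp1 : IsPGroup p (decSub L A ⧸ (⊤ : Subgroup (decSub L A))) := fun c => by
    obtain ⟨x, rfl⟩ := QuotientGroup.mk_surjective c
    exact ⟨0, (QuotientGroup.eq_one_iff _).mpr (Subgroup.mem_top _)⟩
  have hlev : ∃ V ∈ (decSubLevels L A).lev, V ≤ (⊤ : Subgroup (decSub L A)) := by
    obtain ⟨V, hV, -⟩ := exists_level_nested (K := L) (L := L) (A := A)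
    exact ⟨V, hV, le_top⟩
  obtain ⟨-, -, he⟩ := eulerLaw_pGroup (ρ := τ.comp (decSub L A).subtype)
    (⊤ : Subgroup (decSub L A)) hp1 hlev (rightExact2_of_top _ _ rfl)
    (eulerLaw_decSub hL hℓ hA) fun d _ f => hτ _ d.2 f
  have hfr : finrank (ZMod p) (GQ ⧸ L.fixingSubgroup → M) =
      Nat.card (A.decompositionSubgroup ℚ ⧸ decSub L A) * finrank (ZMod p) (ι → M) := by
    rw [E.finrank_eq, Nat.card_eq_fintype_card, Module.finrank_pi_fintype, Finset.sum_const,
      Finset.card_univ, smul_eq_mul]
  rw [eulerChar, he, hfr, localDegree]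
  have hidx : (localGroup L A).relIndex (A.decompositionSubgroup ℚ) =
      Nat.card (A.decompositionSubgroup ℚ ⧸ decSub L A) := by
    rw [← Subgroup.index_eq_card, localGroup, Subgroup.inf_relIndex_right, Subgroup.relIndex]
  split_ifs <;> simp [hidx]

end

end FermatAgent.Duality
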