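import Fermat.Agent.Duality.Instance.LocalSub

/-!
# Duality and finiteness over a decomposition group of `ℚ`

For modules trivial on `G_L`, `L ⊇ μ_p` normal: `H²(D, M)` is dual to the invariants of the twisted
dual, `H¹(D, M)` is finite and paired without kernel with `H¹(D, M')`.
-/

set_option autoImplicit false

namespace FermatAgent.Duality

open Module

noncomputable section

local notation "Qb" => AlgebraicClosure ℚ
local notation "GQ" => AlgebraicClosure ℚ ≃ₐ[ℚ] AlgebraicClosure ℚ

attribute [local instance] FermatAgent.RT.isGalois_algClosureRat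

variable {p : ℕ} [Fact p.Prime]

section Nested

variable (K L : IntermediateField ℚ Qb) (A : ValuationSubring Qb)

/-- The part fixing `L` inside the part fixing `K ≤ L` as the local group of `L`. -/
def nestEquiv (hKL : K ≤ L) : (decSub L A).subgroupOf (decSub K A) ≃* localGroup L A where
  toFun d := ⟨d.1.1.1, d.2, d.1.1.2⟩
  invFun d := ⟨⟨⟨d.1, d.2.2⟩, IntermediateField.fixingSubgroup_antitone hKL d.2.1⟩, d.2.1⟩
  left_inv _ := rfl
  right_inv _ := rfl
  map_mul' _ _ := rfl

variable {K L A}

lemma finrank_H2_nested [FiniteDimensional ℚ L] (hKL : K ≤ L) (hL : ContainsMuP p L) {ℓ : ℕ}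
    (hℓ : ℓ.Prime) (hA : A.LiesOverPrime ℓ) :
    finrank (ZMod p) (H2c ((decSubLevels K A).comap ((decSub L A).subgroupOf (decSub K A)).subtype)
      ((cyc ((decChi p A).comp (decSub K A).subtype)).comp
        ((decSub L A).subgroupOf (decSub K A)).subtype)) = 1 := by
  have he : IsEquivariant (triv (ZMod p) (localGroup L A))
      ((cyc ((decChi p A).comp (decSub K A).subtype)).comp
        ((decSub L A).subgroupOf (decSub K A)).subtype)
      (nestEquiv K L A hKL).toMonoidHom LinearMap.id := fun d x => by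
    show x = (decChi p A d.1.1 : ZMod p) * x
    rw [show decChi p A d.1.1 = 1 from hL _ d.2, Units.val_one, one_mul]
  have hf : IsLevHom ((decSubLevels K A).comap ((decSub L A).subgroupOf (decSub K A)).subtype)
      (localLevels L A) (nestEquiv K L A hKL).toMonoidHom := by
    rintro _ ⟨U, hU, rfl⟩
    exact ⟨_, ⟨_, ⟨_, ⟨U, hU, rfl⟩, rfl⟩, rfl⟩, fun d hd => hd⟩
  have hf' : IsLevHom (localLevels L A)
      ((decSubLevels K A).comap ((decSub L A).subgroupOf (decSub K A)).subtype)
      (nestEquiv K L A hKL).symm.toMonoidHom := by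
    rintro _ ⟨_, ⟨_, ⟨U, hU, rfl⟩, rfl⟩, rfl⟩
    exact ⟨_, ⟨U, hU, rfl⟩, fun d hd => hd⟩
  exact (LinearEquiv.ofBijective _ (map2_bijective (nestEquiv K L A hKL).symm.toMonoidHom
    (fun _ => rfl) (fun _ => rfl) hf he LinearMap.id (fun _ => rfl) (fun _ => rfl) hf')).finrank_eq.symm.trans
    (localDualityAt p hℓ L hL hA).finrank_H2

end Nested

variable {L : IntermediateField ℚ Qb} [FiniteDimensional ℚ L] [L.fixingSubgroup.Normal]
  {A : ValuationSubring Qb} {ℓ : ℕ} (hℓ : ℓ.Prime) (hA : A.LiesOverPrime ℓ) (hL : ContainsMuP p L)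

instance finite_quot_decSub : (decSub L A).FiniteIndex :=
  have := finiteIndex_fixingSubgroup L
  inferInstance

/-- The quotient by the part fixing `L` is finite. -/
instance fintype_quot_decSub : Fintype (A.decompositionSubgroup ℚ ⧸ decSub L A) :=
  Subgroup.fintypeQuotientOfFiniteIndex

omit [FiniteDimensional ℚ L] [L.fixingSubgroup.Normal] in
variable (L A) in
include hL in
lemma decChi_trivial : ∀ n ∈ decSub L A, decChi p A n = 1 := fun _ hn => hL _ hn

variable (inv : H2c (decLevels A) (cyc (decChi p A)) →ₗ[ZMod p] ZMod p) (hinv : inv ≠ 0)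

include hℓ hA hL hinv in
lemma invCores_dec_bijective :
    Function.Bijective
      (invCores (decLevels A) (decSub L A) (exists_level_decSub L A) (decChi p A) inv) := by
  refine bijective_of_finrank_one (finrank_H2_decSub hL hℓ hA) fun h => hinv (LinearMap.ext fun x => ?_)
  obtain ⟨y, rfl⟩ := cores2_surjective (decLevels A) (decSub L A) (exists_level_decSub L A)
    (rightExact2_decomposition hℓ L hL hA)
    (show TrivialOn (decSub L A) (cyc (decChi p A)) from
      fun d hd m => cyc_trivial _ _ (decChi_trivial L A hL) ⟨d, hd⟩ m) x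
  exact LinearMap.congr_fun h y

variable {M : Type} [AddCommGroup M] [Module (ZMod p) M] [FiniteDimensional (ZMod p) M]
  {σ : Representation (ZMod p) (A.decompositionSubgroup ℚ) M} (hσ : TrivialOn (decSub L A) σ)

include hℓ hA hL hinv hσ in
/-- `H²(D, M)` is dual to the invariants of the twisted dual. -/
theorem dualEval_dec_bijective :
    Function.Bijective (dualEval (decLevels A) (decChi p A) inv (ρ := σ)) :=
  dualEval_bijective (decLevels A) (decSub L A) (exists_level_decSub L A) (decChi p A) inv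
    (decChi_trivial L A hL) hσ (invCores_dec_bijective hℓ hA hL inv hinv)
    (rightExact2_decomposition hℓ L hL hA)

include hℓ hA hL hinv hσ in
lemma finite_H2_dec : FiniteDimensional (ZMod p) (H2c (decLevels A) σ) :=
  Module.Finite.equiv (LinearEquiv.ofBijective _ (dualEval_dec_bijective hℓ hA hL inv hinv hσ)).symm

include hℓ hA hL hinv hσ in
lemma finrank_H2_dec :
    finrank (ZMod p) (H2c (decLevels A) σ) =
      finrank (ZMod p) (dualTw (decChi p A) σ).invariants := by
  rw [(LinearEquiv.ofBijective _ (dualEval_dec_bijective hℓ hA hL inv hinv hσ)).finrank_eq,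
    Subspace.dual_finrank_eq]

include hL in
/-- A subfield whose part in `D` is a Sylow subgroup modulo `G_L`. -/
theorem exists_sylowField (A : ValuationSubring Qb) :
    ∃ K : IntermediateField ℚ Qb, FiniteDimensional ℚ K ∧ K ≤ L ∧ ContainsMuP p K ∧
      (∀ σ ∈ K.fixingSubgroup, ∃ k, σ ^ p ^ k ∈ L.fixingSubgroup) ∧
      ¬p ∣ (decSub K A).index := by
  set D := A.decompositionSubgroup ℚ
  set N := L.fixingSubgroup with hN
  have : Finite (D ⧸ decSub L A) := Finite.of_fintype _
  let P : Sylow p (D ⧸ decSub L A) := default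
  let U : Subgroup D := (P : Subgroup (D ⧸ decSub L A)).comap (QuotientGroup.mk' (decSub L A))
  obtain ⟨K, hKL, hKfd, hK⟩ := exists_field_of_fixingSubgroup_le (F := L)
    (H := U.map D.subtype ⊔ N) le_sup_right
  have hNU : decSub L A ≤ U := fun x hx => by
    show ((x : D) : D ⧸ decSub L A) ∈ (P : Subgroup (D ⧸ decSub L A))
    rw [(QuotientGroup.eq_one_iff x).mpr hx]
    exact one_mem _
  have hsub : decSub K A = U := by
    ext d
    show (d : GQ) ∈ K.fixingSubgroup ↔ d ∈ U
    rw [hK, ← SetLike.mem_coe, Subgroup.mul_normal, Set.mem_mul]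
    constructor
    · rintro ⟨_, ⟨u, hu, rfl⟩, n, hn, e⟩
      have h : u⁻¹ * d ∈ decSub L A := by
        show (u : GQ)⁻¹ * d ∈ N
        rw [← e]
        simpa using hn
      simpa using U.mul_mem hu (hNU h)
    · exact fun hd => ⟨d, ⟨d, hd, rfl⟩, 1, N.one_mem, mul_one _⟩
  have hpow : ∀ σ ∈ K.fixingSubgroup, ∃ k, σ ^ p ^ k ∈ N := by
    intro σ hσ
    rw [hK, ← SetLike.mem_coe, Subgroup.mul_normal, Set.mem_mul] at hσ
    obtain ⟨_, ⟨u, hu, rfl⟩, n, hn, rfl⟩ := hσ
    obtain ⟨k, hk⟩ := P.isPGroup' ⟨QuotientGroup.mk' (decSub L A) u, hu⟩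
    refine ⟨k, (QuotientGroup.eq_one_iff _).mp ?_⟩
    have h1 : ((u ^ p ^ k : D) : D ⧸ decSub L A) = 1 := congrArg Subtype.val hk
    have h2 : ((u : GQ) ^ p ^ k) ∈ N := (QuotientGroup.eq_one_iff (u ^ p ^ k : D)).mp h1
    rw [QuotientGroup.mk_pow, QuotientGroup.mk_mul, (QuotientGroup.eq_one_iff n).mpr hn, mul_one,
      ← QuotientGroup.mk_pow]
    exact (QuotientGroup.eq_one_iff _).mpr h2
  refine ⟨K, hKfd, hKL, fun σ hσ => ?_, hpow, ?_⟩
  · obtain ⟨k, hk⟩ := hpow σ hσ
    exact eq_one_of_pow_prime_pow _ (hL _ hk)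
  · rw [hsub, Subgroup.index_comap_of_surjective _ (QuotientGroup.mk'_surjective _)]
    exact P.not_dvd_index

variable {K : IntermediateField ℚ Qb} [FiniteDimensional ℚ K] (hKL : K ≤ L) (hK : ContainsMuP p K)
  (hp : ∀ τ ∈ K.fixingSubgroup, ∃ k, τ ^ p ^ k ∈ L.fixingSubgroup)

include hℓ hA hKL hK hp in
/-- `H²` of the part fixing `K` is right exact. -/
theorem rightExact2_decSub :
    RightExact2 p (decSubLevels K A) ((decSub L A).subgroupOf (decSub K A)) := by
  have : (L.fixingSubgroup.subgroupOf K.fixingSubgroup).Normal :=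
    (inferInstance : L.fixingSubgroup.Normal).subgroupOf _
  exact RightExact2.of_equiv (decSubEquiv K A) (isLevHom_decSubEquiv K A)
    (isLevHom_decSubEquiv_symm K A) (fun _ hd => hd) (rightExact2_localGroup hℓ K L hKL hK hp hA)

omit [Fact (Nat.Prime p)] [FiniteDimensional ℚ L] [FiniteDimensional ℚ K] in
include hp in
lemma isPGroup_decSub : IsPGroup p (decSub K A ⧸ (decSub L A).subgroupOf (decSub K A)) := fun c => by
  obtain ⟨x, rfl⟩ := QuotientGroup.mk_surjective c
  obtain ⟨k, hk⟩ := hp _ x.2
  exact ⟨k, (QuotientGroup.eq_one_iff _).mpr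
    (show (((x ^ p ^ k : decSub K A) : A.decompositionSubgroup ℚ) : GQ) ∈ L.fixingSubgroup from hk)⟩

omit [L.fixingSubgroup.Normal] [FiniteDimensional ℚ K] in
lemma exists_level_nested :
    ∃ V ∈ (decSubLevels K A).lev, V ≤ (decSub L A).subgroupOf (decSub K A) :=
  ⟨_, ⟨_, ⟨_, ⟨L, inferInstance, rfl⟩, rfl⟩, rfl⟩, fun _ hx => hx⟩

instance finiteIndex_nested : ((decSub L A).subgroupOf (decSub K A)).FiniteIndex :=
  inferInstance

instance fintype_quot_nested :
    Fintype (decSub K A ⧸ (decSub L A).subgroupOf (decSub K A)) :=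
  Subgroup.fintypeQuotientOfFiniteIndex

include hℓ hA hKL hK hp hσ in
lemma eulerLaw_decSub_module :
    EulerLaw (decSubLevels K A) (localDegree p ℓ K A : ℤ) (σ.comp (decSub K A).subtype) :=
  eulerLaw_pGroup _ (isPGroup_decSub hp) exists_level_nested
    (rightExact2_decSub hℓ hA hKL hK hp) (eulerLaw_decSub hK hℓ hA) fun _ hd m => hσ _ hd m

include hℓ hA hL hσ in
/-- `H¹(D, M)` is finite. -/
theorem finite_H1_dec : FiniteDimensional (ZMod p) (H1c (decLevels A) σ) := by
  obtain ⟨K, hKfd, hKL, hK, hp, hidx⟩ := exists_sylowField hL A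
  have : (decSub K A).FiniteIndex :=
    Subgroup.finiteIndex_of_le (H := decSub L A) fun x hx =>
      IntermediateField.fixingSubgroup_antitone hKL hx
  let : Fintype (A.decompositionSubgroup ℚ ⧸ decSub K A) := Subgroup.fintypeQuotientOfFiniteIndex
  have hidx' : ¬p ∣ Fintype.card (A.decompositionSubgroup ℚ ⧸ decSub K A) := by
    rwa [← Nat.card_eq_fintype_card, ← Subgroup.index_eq_card]
  obtain ⟨h1, -, -⟩ := eulerLaw_decSub_module hℓ hA hσ hKL hK hp
  exact Module.Finite.of_injective _
    (res1_injective (decLevels A) (decSub K A) σ hidx' (exists_level_decSub K A))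

set_option maxHeartbeats 800000 in
include hℓ hA hL hσ hinv in
/-- Local duality in degree `1`: no class pairs to zero with all of the twisted dual. -/
theorem leftNondeg_dec : LeftNondeg (decChi p A) σ (decLevels A) inv := by
  obtain ⟨K, hKfd, hKL, hK, hp, hidx⟩ := exists_sylowField hL A
  have : (decSub K A).FiniteIndex :=
    Subgroup.finiteIndex_of_le (H := decSub L A) fun x hx =>
      IntermediateField.fixingSubgroup_antitone hKL hx
  let : Fintype (A.decompositionSubgroup ℚ ⧸ decSub K A) := Subgroup.fintypeQuotientOfFiniteIndex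
  have hidx' : ¬p ∣ Fintype.card (A.decompositionSubgroup ℚ ⧸ decSub K A) := by
    rwa [← Nat.card_eq_fintype_card, ← Subgroup.index_eq_card]
  have hU := exists_level_decSub K A
  let invU := invSub (decChi p A) (decLevels A) inv (decSub K A) hU
  have hne : invU ≠ 0 := by
    intro h
    refine hinv (LinearMap.ext fun x => ?_)
    have h1 := LinearMap.congr_fun h (res2 (decLevels A) (cyc (decChi p A)) (decSub K A) x)
    have h2 : inv (cores2 (decSub K A) (cyc (decChi p A)) (decLevels A) hU
        (res2 (decLevels A) (cyc (decChi p A)) (decSub K A) x)) = 0 := h1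
    have h2 := ((congrArg inv (cores2_res2 (decSub K A) (cyc (decChi p A)) (decLevels A) hU x)).trans
      (map_nsmul inv _ x)).symm.trans h2
    rw [← Nat.cast_smul_eq_nsmul (ZMod p)] at h2
    rcases smul_eq_zero.mp h2 with h0 | h0
    · exact absurd ((CharP.cast_eq_zero_iff (ZMod p) p _).mp h0) hidx'
    · exact h0
  refine leftNondeg_of_index (decChi p A) (decLevels A) inv (decSub K A) hU σ hidx' ?_
  have hR := rightExact2_decSub hℓ hA hKL hK hp
  have hχ : ∀ g, (decChi p A).comp (decSub K A).subtype g = 1 := decChi_eq_one hK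
  refine leftNondeg_pGroup _ (isPGroup_decSub hp) exists_level_nested _ invU hχ hR ?_
    (leftNondeg_decSub hK hℓ hA invU hne) fun d hd m => hσ _ hd m
  refine bijective_of_finrank_one (finrank_H2_nested hKL hL hℓ hA) fun h =>
    hne (LinearMap.ext fun x => ?_)
  obtain ⟨y, rfl⟩ := cores2_surjective (decSubLevels K A) ((decSub L A).subgroupOf (decSub K A))
    exists_level_nested hR
    (show TrivialOn _ (cyc ((decChi p A).comp (decSub K A).subtype)) from
      fun d hd m => cyc_trivial _ _ (fun n _ => hχ n) ⟨d, hd⟩ m) x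
  exact LinearMap.congr_fun h y

end

end FermatAgent.Duality
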