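import Fermat.Agent.Duality.Instance.GlobalExact
import Fermat.Agent.Duality.PT.Devissage

/-!
# Subgroups of a decomposition group cut out by fields containing `μ_p`

For a number field `K ⊇ μ_p` the subgroup of `D_A` fixing `K` is the local group of `K`: this
transports the base of the local Euler characteristic and of the local pairing.
-/

set_option autoImplicit false

namespace FermatAgent.Duality

open Module

noncomputable section

local notation "Qb" => AlgebraicClosure ℚ
local notation "GQ" => AlgebraicClosure ℚ ≃ₐ[ℚ] AlgebraicClosure ℚ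

attribute [local instance] FermatAgent.RT.isGalois_algClosureRat

variable {p : ℕ} [Fact p.Prime]

variable (p) in
/-- The cyclotomic character of a decomposition group. -/
abbrev decChi (A : ValuationSubring Qb) : A.decompositionSubgroup ℚ →* (ZMod p)ˣ :=
  (ExtCitation.cycloChar p).comp (A.decompositionSubgroup ℚ).subtype

/-- The levels of a decomposition group. -/
abbrev decLevels (A : ValuationSubring Qb) : LevelSystem (A.decompositionSubgroup ℚ) :=
  subLevels (A.decompositionSubgroup ℚ)

/-- The part of a decomposition group fixing `K`. -/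
abbrev decSub (K : IntermediateField ℚ Qb) (A : ValuationSubring Qb) :
    Subgroup (A.decompositionSubgroup ℚ) :=
  K.fixingSubgroup.subgroupOf (A.decompositionSubgroup ℚ)

/-- The levels of the part fixing `K`. -/
abbrev decSubLevels (K : IntermediateField ℚ Qb) (A : ValuationSubring Qb) :
    LevelSystem (decSub K A) :=
  (decLevels A).comap (decSub K A).subtype

variable (K : IntermediateField ℚ Qb) (A : ValuationSubring Qb)

/-- The part fixing `K` as the local group of `K`. -/
def decSubEquiv : decSub K A ≃* localGroup K A where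
  toFun d := ⟨d.1.1, d.2, d.1.2⟩
  invFun d := ⟨⟨d.1, d.2.2⟩, d.2.1⟩
  left_inv _ := rfl
  right_inv _ := rfl
  map_mul' _ _ := rfl

lemma isLevHom_decSubEquiv :
    IsLevHom (decSubLevels K A) (localLevels K A) (decSubEquiv K A).toMonoidHom := by
  rintro _ ⟨U, hU, rfl⟩
  exact ⟨_, ⟨_, ⟨U, hU, rfl⟩, rfl⟩, fun d hd => hd⟩

lemma isLevHom_decSubEquiv_symm :
    IsLevHom (localLevels K A) (decSubLevels K A) (decSubEquiv K A).symm.toMonoidHom := by
  rintro _ ⟨_, ⟨U, hU, rfl⟩, rfl⟩
  exact ⟨_, ⟨U, hU, rfl⟩, fun d hd => hd⟩

lemma exists_level_decSub [FiniteDimensional ℚ K] :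
    ∃ V ∈ (decLevels A).lev, V ≤ decSub K A :=
  ⟨_, ⟨_, ⟨K, inferInstance, rfl⟩, rfl⟩, fun _ hx => hx⟩

variable {K A} (hK : ContainsMuP p K)

include hK in
lemma decChi_eq_one (d : decSub K A) : decChi p A d.1 = 1 := hK _ d.2

include hK in
lemma equiv_decSub : IsEquivariant (triv (ZMod p) (localGroup K A))
    ((cyc (decChi p A)).comp (decSub K A).subtype) (decSubEquiv K A).toMonoidHom LinearMap.id :=
  fun d x => by
    show x = (decChi p A d.1 : ZMod p) * x
    rw [decChi_eq_one hK d, Units.val_one, one_mul]

/-- Local classes of `K` as classes of the part of `D_A` fixing `K`. -/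
def toDecSub1 : localH1 p K A →ₗ[ZMod p] H1c (decSubLevels K A) (triv (ZMod p) (decSub K A)) :=
  map1 (φ := LinearMap.id) _ _ (isLevHom_decSubEquiv K A) (fun _ _ => rfl)

/-- Local classes of `K` as classes of the part of `D_A` fixing `K`, in degree `2`. -/
def toDecSub2 : localH2 p K A →ₗ[ZMod p] H2c (decSubLevels K A) (triv (ZMod p) (decSub K A)) :=
  map2 (φ := LinearMap.id) _ _ (isLevHom_decSubEquiv K A) (fun _ _ => rfl)

/-- Local classes of `K` as classes with values in `μ_p`. -/
def toDecCyc2 : localH2 p K A →ₗ[ZMod p]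
    H2c (decSubLevels K A) ((cyc (decChi p A)).comp (decSub K A).subtype) :=
  map2 _ _ (isLevHom_decSubEquiv K A) (equiv_decSub hK)

lemma toDecSub1_bijective : Function.Bijective (toDecSub1 (p := p) (K := K) (A := A)) :=
  map1_bijective (decSubEquiv K A).symm.toMonoidHom (fun _ => rfl) (fun _ => rfl) _ _
    LinearMap.id (fun _ => rfl) (fun _ => rfl) (isLevHom_decSubEquiv_symm K A)

lemma toDecSub2_bijective : Function.Bijective (toDecSub2 (p := p) (K := K) (A := A)) :=
  map2_bijective (decSubEquiv K A).symm.toMonoidHom (fun _ => rfl) (fun _ => rfl) _ _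
    LinearMap.id (fun _ => rfl) (fun _ => rfl) (isLevHom_decSubEquiv_symm K A)

lemma toDecCyc2_bijective : Function.Bijective (toDecCyc2 (A := A) hK) :=
  map2_bijective (decSubEquiv K A).symm.toMonoidHom (fun _ => rfl) (fun _ => rfl) _ _
    LinearMap.id (fun _ => rfl) (fun _ => rfl) (isLevHom_decSubEquiv_symm K A)

variable [FiniteDimensional ℚ K] {ℓ : ℕ} (hℓ : ℓ.Prime) (hA : A.LiesOverPrime ℓ)

include hK hℓ hA in
/-- The base of the local Euler characteristic. -/
theorem eulerLaw_decSub :
    EulerLaw (decSubLevels K A) (localDegree p ℓ K A : ℤ) (triv (ZMod p) (decSub K A)) := by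
  have hD := localDualityAt p hℓ K hK hA
  let e1 := LinearEquiv.ofBijective _ (toDecSub1_bijective (p := p) (K := K) (A := A))
  let e2 := LinearEquiv.ofBijective _ (toDecSub2_bijective (p := p) (K := K) (A := A))
  have := hD.finite_H1
  have : Module.Finite (ZMod p) (localH2 p K A) := Module.finite_of_finrank_eq_succ hD.finrank_H2
  refine ⟨Module.Finite.equiv e1, Module.Finite.equiv e2, ?_⟩
  have i0 : (triv (ZMod p) (decSub K A)).invariants = ⊤ := eq_top_iff.mpr fun x _ g => rfl
  rw [i0, finrank_top, finrank_self, ← e1.finrank_eq, ← e2.finrank_eq, hD.finrank_H1,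
    hD.finrank_H2]
  push_cast
  ring

include hK hℓ hA in
lemma finrank_H2_decSub :
    finrank (ZMod p)
      (H2c (decSubLevels K A) ((cyc (decChi p A)).comp (decSub K A).subtype)) = 1 :=
  (LinearEquiv.ofBijective _ (toDecCyc2_bijective (A := A) hK)).finrank_eq.symm.trans
    (localDualityAt p hℓ K hK hA).finrank_H2

include hK hℓ hA in
/-- The base of local nondegeneracy. -/
theorem leftNondeg_decSub
    (inv : H2c (decSubLevels K A) (cyc ((decChi p A).comp (decSub K A).subtype)) →ₗ[ZMod p] ZMod p)
    (hinv : inv ≠ 0) :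
    LeftNondeg ((decChi p A).comp (decSub K A).subtype) (triv (ZMod p) (decSub K A))
      (decSubLevels K A) inv := by
  intro x hx
  obtain ⟨x', rfl⟩ := (toDecSub1_bijective (p := p) (K := K) (A := A)).2 x
  suffices h : x' = 0 by rw [h, map_zero]
  refine (localDualityAt p hℓ K hK hA).cup_nondegenerate x' fun y' => ?_
  have hbij : Function.Bijective inv :=
    bijective_of_finrank_one (finrank_H2_decSub hK hℓ hA) hinv
  have hg : IsEquivariant (triv (ZMod p) (decSub K A))
      (dualTw ((decChi p A).comp (decSub K A).subtype) (triv (ZMod p) (decSub K A)))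
      (MonoidHom.id (decSub K A)) (LinearMap.toSpanSingleton (ZMod p) _ LinearMap.id) :=
    fun d r => by
      refine LinearMap.ext fun m => ?_
      rw [dualTw_apply]
      show r • m = (decChi p A d.1 : ZMod p) * (r • m)
      rw [decChi_eq_one hK d, Units.val_one, one_mul]
  have h := hx (map1 _ _ (isLevHom_id _) hg (toDecSub1 y'))
  have h2 : toDecCyc2 hK (cupTriv (ZMod p) (localLevels K A) x' y') = 0 := by
    refine hbij.1 (Eq.trans ?_ (map_zero inv).symm)
    refine Eq.trans ?_ h
    rw [pair1_apply]
    refine congrArg inv ?_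
    induction x' using Submodule.Quotient.induction_on with
    | _ a =>
    induction y' using Submodule.Quotient.induction_on with
    | _ b =>
      refine congrArg (cl2 (decSubLevels K A) (cyc ((decChi p A).comp (decSub K A).subtype)))
        (Subtype.ext (funext fun q => ?_))
      obtain ⟨g, g'⟩ := q
      show a.1 _ * b.1 _ =
        dualTw ((decChi p A).comp (decSub K A).subtype) (triv (ZMod p) (decSub K A)) g
          (b.1 _ • LinearMap.id) (a.1 _)
      rw [dualTw_apply]
      show _ = (decChi p A g.1 : ZMod p) * (b.1 _ * a.1 _)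
      rw [decChi_eq_one hK g, Units.val_one, one_mul, mul_comm]
      rfl
  exact (toDecCyc2_bijective (A := A) hK).1 (h2.trans (map_zero _).symm)

end

end FermatAgent.Duality
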