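import Fermat.Agent.Duality.Instance.RatSetup
import Fermat.Agent.Duality.Instance.LocalEuler
import Fermat.Agent.Duality.PT.Exact
import Fermat.Agent.Duality.Bridge.Finite

/-!
# Exactness of localisation in degree `1` over `ℚ`

Reciprocity bounds the sum of the local Euler characteristics; on induced modules the bound is
attained, so it is attained for all modules, and the images of `H¹(G_{ℚ,S}, M)` and
`H¹(G_{ℚ,S}, M')` are exact annihilators.
-/

set_option autoImplicit false

namespace FermatAgent.Duality

open Module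

noncomputable section

local notation "Qb" => AlgebraicClosure ℚ
local notation "GQ" => AlgebraicClosure ℚ ≃ₐ[ℚ] AlgebraicClosure ℚ

attribute [local instance] FermatAgent.RT.isGalois_algClosureRat

variable {p : ℕ} [Fact p.Prime]

lemma two_ne_zero_of_ne_two (hp : p ≠ 2) : (2 : ZMod p) ≠ 0 := fun h => hp (by
  have h' := (ZMod.natCast_eq_zero_iff 2 p).1 (by simpa using h)
  exact (Nat.prime_dvd_prime_iff_eq (Fact.out : p.Prime) Nat.prime_two).1 h')

namespace RatCtx

variable (C : RatCtx p)

include C in
/-- The cyclotomic character at complex conjugation. -/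
lemma cycloChar_conj : (ExtCitation.cycloChar p complexConjugation : ZMod p) = -1 := by
  have h := Euler.omegaL_ccL C.hL
  rwa [Euler.ccL, Euler.omegaL_mk] at h

variable {M : Type} [AddCommGroup M] [Module (ZMod p) M] [FiniteDimensional (ZMod p) M]
  (ρ : Representation (ZMod p) GQ M) (hρ : TrivialOn C.L.fixingSubgroup ρ)

/-- The twisted dual. -/
abbrev dualRep : Representation (ZMod p) GQ (Dual (ZMod p) M) :=
  dualTw C.datum.χ ρ

/-- The restriction to the decomposition group of the chosen place over `q`. -/
abbrev resAt (q : Nat.Primes) : Representation (ZMod p) ((C.A q).decompositionSubgroup ℚ) M :=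
  ρ.comp ((C.A q).decompositionSubgroup ℚ).subtype

omit [FiniteDimensional (ZMod p) M] in
include hρ in
lemma trivialOn_dual : TrivialOn C.L.fixingSubgroup (C.dualRep ρ) :=
  trivialOn_dualTw (ExtCitation.cycloChar p) ρ (fun n hn => C.hL n hn) hρ

include hρ in
omit [FiniteDimensional (ZMod p) M] in
lemma trivialOn_resAt (q : Nat.Primes) : TrivialOn (decSub C.L (C.A q)) (C.resAt ρ q) :=
  fun _ hd m => hρ _ hd m

include hρ in
lemma finite_H1_global : FiniteDimensional (ZMod p) (H1c (sLevels C.S) ρ) :=
  finite_H1c_sLevels ρ (fun m => ⟨C.L, inferInstance, fun s hs => hρ s hs m⟩) C.S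

include hρ in
lemma finite_H1_at (q : Nat.Primes) :
    FiniteDimensional (ZMod p) (H1c (decLevels (C.A q)) (C.resAt ρ q)) :=
  finite_H1_dec q.2 (C.liesOver q) C.hL (C.trivialOn_resAt ρ hρ q)

include hρ in
lemma leftNondeg_at (q : Nat.Primes) :
    LeftNondeg (decChi p (C.A q)) (C.resAt ρ q) (decLevels (C.A q)) (C.locInv q) :=
  leftNondeg_dec q.2 (C.liesOver q) C.hL (C.locInv q) (C.locInv_ne_zero q)
    (C.trivialOn_resAt ρ hρ q)

/-- The sum of the local Euler characteristics. -/
def locEuler : ℤ := ∑ q : C.datum.ι, eulerChar (decLevels (C.A q.1)) (C.resAt ρ q.1)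

/-- The sum of the local invariants of the module and of its dual. -/
def locInvariants : ℕ :=
  ∑ q : C.datum.ι, (finrank (ZMod p) (Representation.invariants (ρ.comp (C.datum.D q).subtype)) +
    finrank (ZMod p) (dualTw (C.datum.χ.comp (C.datum.D q).subtype)
      (ρ.comp (C.datum.D q).subtype)).invariants)

include hρ in
lemma finrank_loc : (finrank (ZMod p) (C.datum.Loc1 ρ) : ℤ) = C.locInvariants ρ - C.locEuler ρ := by
  have h := fun i : C.datum.ι => C.finite_H1_at ρ hρ i.1
  have hfin : ∀ i : C.datum.ι,
      Module.Finite (ZMod p) (H1c (C.datum.locLev i) (ρ.comp (C.datum.D i).subtype)) := h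
  have hfree : ∀ i : C.datum.ι,
      Module.Free (ZMod p) (H1c (C.datum.locLev i) (ρ.comp (C.datum.D i).subtype)) :=
    fun i => Module.Free.of_divisionRing (ZMod p) _
  rw [show finrank (ZMod p) (C.datum.Loc1 ρ) =
      ∑ q : C.datum.ι, finrank (ZMod p) (H1c (decLevels (C.A q.1)) (C.resAt ρ q.1)) from
    Module.finrank_pi_fintype (ZMod p)]
  rw [locEuler, locInvariants, Nat.cast_sum, Nat.cast_sum, ← Finset.sum_sub_distrib]
  refine Finset.sum_congr rfl fun q _ => ?_
  rw [eulerChar, finrank_H2_dec q.1.2 (C.liesOver q.1) C.hL (C.locInv q.1) (C.locInv_ne_zero q.1)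
    (C.trivialOn_resAt ρ hρ q.1)]
  push_cast
  ring!

/-- Evaluation as an equivalence with the bidual. -/
abbrev evalE : M ≃ₗ[ZMod p] Dual (ZMod p) (Dual (ZMod p) M) := Module.evalEquiv (ZMod p) M

omit [FiniteDimensional (ZMod p) M] in
lemma finrank_ker_locAll :
    finrank (ZMod p) (LinearMap.ker (C.datum.locAll ρ)) = finrank (ZMod p) (C.datum.sha1 ρ) := rfl

lemma finrank_sha1_bidual :
    finrank (ZMod p) (C.datum.sha1 (C.dualRep (C.dualRep ρ))) =
      finrank (ZMod p) (C.datum.sha1 ρ) := by
  have he : ∀ g m, evalE (ρ g m) = C.dualRep (C.dualRep ρ) g (evalE (M := M) m) :=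
    fun g m => (dualTw_dualTw_eval (ExtCitation.cycloChar p) ρ g m).symm
  let E := Euler.h1Equiv (LG := C.datum.L) (ρ := ρ) (σ := C.dualRep (C.dualRep ρ)) (evalE (M := M)) he
  refine (LinearEquiv.ofSubmodules E (C.datum.sha1 ρ) _ ?_).finrank_eq.symm
  ext y
  rw [Submodule.mem_map_equiv, Datum.mem_sha1, Datum.mem_sha1]
  refine forall_congr' fun i => ?_
  have key : ∀ x, C.datum.loc1 (C.dualRep (C.dualRep ρ)) i (E x) =
      Euler.h1Equiv (LG := C.datum.locLev i) (evalE (M := M))
        (ρ := ρ.comp (C.datum.D i).subtype)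
        (σ := (C.dualRep (C.dualRep ρ)).comp (C.datum.D i).subtype)
        (fun d m => he d m) (C.datum.loc1 ρ i x) := fun x => by
    induction x using Submodule.Quotient.induction_on with
    | _ z => rfl
  have h := key (E.symm y)
  rw [E.apply_symm_apply] at h
  rw [h, LinearEquiv.map_eq_zero_iff]

lemma finrank_invariants_bidual :
    finrank (ZMod p) (C.dualRep (C.dualRep ρ)).invariants = finrank (ZMod p) ρ.invariants :=
  (Euler.h0Equiv (evalE (M := M))
    (fun g m => (dualTw_dualTw_eval (ExtCitation.cycloChar p) ρ g m).symm)).finrank_eq.symm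

set_option maxHeartbeats 800000 in
lemma finrank_invariants_at_bidual (q : C.datum.ι) :
    finrank (ZMod p) (dualTw (C.datum.χ.comp (C.datum.D q).subtype)
      ((C.dualRep ρ).comp (C.datum.D q).subtype)).invariants =
      finrank (ZMod p) (Representation.invariants (ρ.comp (C.datum.D q).subtype)) :=
  (Euler.h0Equiv (ρ := ρ.comp (C.datum.D q).subtype)
    (σ := dualTw (C.datum.χ.comp (C.datum.D q).subtype)
      ((C.dualRep ρ).comp (C.datum.D q).subtype)) (evalE (M := M))
    (fun g m => (dualTw_dualTw_eval C.datum.χ ρ (g : GQ) m).symm)).finrank_eq.symm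

include C in
/-- `ρ'(c) + 1` and `ρ(c) + 1` have kernels of complementary dimensions. -/
lemma finrank_ker_conj :
    finrank (ZMod p) (LinearMap.ker (ρ complexConjugation + 1)) +
      finrank (ZMod p) (LinearMap.ker (C.dualRep ρ complexConjugation + 1)) =
        finrank (ZMod p) M := by
  set c := ρ complexConjugation with hc
  have hcc : ∀ m, c (c m) = m := fun m => by
    rw [hc, ← Module.End.mul_apply, ← map_mul, complexConjugation_mul_self, map_one,
      Module.End.one_apply]
  have h2 := two_ne_zero_of_ne_two C.hp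
  have hker : LinearMap.ker (C.dualRep ρ complexConjugation + 1) =
      (LinearMap.range (c - 1)).dualAnnihilator := by
    ext f
    rw [LinearMap.mem_ker, Submodule.mem_dualAnnihilator]
    have hinv : ρ complexConjugation⁻¹ = c := by
      rw [hc, inv_eq_of_mul_eq_one_right complexConjugation_mul_self]
    constructor
    · rintro h _ ⟨m, rfl⟩
      have h1 := LinearMap.congr_fun h m
      rw [LinearMap.add_apply, LinearMap.add_apply, Module.End.one_apply, dualTw_apply,
        show (C.datum.χ complexConjugation : ZMod p) = -1 from C.cycloChar_conj, hinv, LinearMap.zero_apply] at h1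
      rw [LinearMap.sub_apply, map_sub, Module.End.one_apply]
      linear_combination -h1
    · intro h
      refine LinearMap.ext fun m => ?_
      have h1 := h _ ⟨m, rfl⟩
      rw [LinearMap.sub_apply, map_sub, Module.End.one_apply] at h1
      rw [LinearMap.add_apply, LinearMap.add_apply, Module.End.one_apply, dualTw_apply,
        show (C.datum.χ complexConjugation : ZMod p) = -1 from C.cycloChar_conj, hinv, LinearMap.zero_apply]
      linear_combination -h1
  have hrange : LinearMap.range (c - 1) = LinearMap.ker (c + 1) := by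
    refine le_antisymm ?_ fun m hm => ?_
    · rintro _ ⟨m, rfl⟩
      rw [LinearMap.mem_ker]
      simp [hcc]
    · rw [LinearMap.mem_ker, LinearMap.add_apply, Module.End.one_apply] at hm
      refine ⟨-((2 : ZMod p)⁻¹) • m, ?_⟩
      rw [LinearMap.sub_apply, Module.End.one_apply, map_smul, eq_neg_of_add_eq_zero_left hm,
        smul_neg, neg_smul, neg_neg, sub_neg_eq_add, ← add_smul, ← two_mul, mul_inv_cancel₀ h2,
        one_smul]
  rw [hker, hrange]
  exact Subspace.finrank_add_finrank_dualAnnihilator_eq _

include hρ in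
lemma finrank_range_locAll :
    (finrank (ZMod p) (LinearMap.range (C.datum.locAll ρ)) : ℤ) +
        finrank (ZMod p) (C.datum.sha1 ρ) =
      (finrank (ZMod p) ρ.invariants : ℤ) - finrank (ZMod p) (C.dualRep ρ).invariants +
        finrank (ZMod p) (LinearMap.ker (ρ complexConjugation + 1)) +
        finrank (ZMod p) (C.datum.sha1 (C.dualRep ρ)) +
        ∑ q : C.datum.ι, (finrank (ZMod p) (dualTw (C.datum.χ.comp (C.datum.D q).subtype)
          (ρ.comp (C.datum.D q).subtype)).invariants : ℤ) := by
  have : FiniteDimensional (ZMod p) (H1c C.datum.L ρ) := C.finite_H1_global ρ hρ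
  have he := Euler.euler_characteristic C.hp C.hL C.enough
    (rightExact2_sLevels C.hp C.hL C.big) ρ hρ
  have h2 := C.datum.finrank_H2 ρ hρ C.valid
  have h1 := LinearMap.finrank_range_add_finrank_ker (C.datum.locAll ρ)
  rw [C.finrank_ker_locAll ρ] at h1
  zify at h1 h2
  change (finrank (ZMod p) (H2c (sLevels C.S) ρ) : ℤ) + _ = _ at h2
  change _ = (finrank (ZMod p) (H1c (sLevels C.S) ρ) : ℤ) at h1
  linarith

include hρ in
/-- The two images together have the expected dimension. -/
theorem finrank_ranges :
    (finrank (ZMod p) (LinearMap.range (C.datum.locAll ρ)) : ℤ) +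
        finrank (ZMod p) (LinearMap.range (C.datum.locAll (C.dualRep ρ))) =
      C.locInvariants ρ + finrank (ZMod p) M := by
  have h := C.finrank_range_locAll ρ hρ
  have h' := C.finrank_range_locAll (C.dualRep ρ) (C.trivialOn_dual ρ hρ)
  rw [C.finrank_invariants_bidual ρ, C.finrank_sha1_bidual ρ] at h'
  simp only [C.finrank_invariants_at_bidual ρ] at h'
  have hc := C.finrank_ker_conj ρ
  zify at hc
  rw [locInvariants, Nat.cast_sum]
  push_cast
  rw [Finset.sum_add_distrib]
  linarith

include hρ in
/-- The bound given by reciprocity. -/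
theorem locEuler_le : C.locEuler ρ ≤ -(finrank (ZMod p) M : ℤ) := by
  have : ∀ i, FiniteDimensional (ZMod p) (H1c (C.datum.locLev i) (ρ.comp (C.datum.D i).subtype)) :=
    fun i => C.finite_H1_at ρ hρ i.1
  have : ∀ i, FiniteDimensional (ZMod p)
      (H1c (C.datum.locLev i) ((dualTw C.datum.χ ρ).comp (C.datum.D i).subtype)) :=
    fun i => C.finite_H1_at (C.dualRep ρ) (C.trivialOn_dual ρ hρ) i.1
  have h := (C.datum.exact_of_finrank ρ (fun i => C.leftNondeg_at ρ hρ i.1)
    (fun i => C.leftNondeg_at (C.dualRep ρ) (C.trivialOn_dual ρ hρ) i.1) C.reciprocity).1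
  have h1 := C.finrank_ranges ρ hρ
  have h2 := C.finrank_loc ρ hρ
  zify at h
  linarith

include hρ in
/-- **The sum of the local Euler characteristics.** -/
theorem locEuler_eq : C.locEuler ρ = -(finrank (ZMod p) M : ℤ) := by
  let _ : Fintype (GQ ⧸ C.L.fixingSubgroup) := Subgroup.fintypeQuotientOfFiniteIndex
  have hI := trivialOn_indRep C.L.fixingSubgroup hρ
  let π : (GQ ⧸ C.L.fixingSubgroup → M) →ₗ[ZMod p] M := indSum C.L.fixingSubgroup
  have hπ : ∀ g φ, π (indRep C.L.fixingSubgroup ρ g φ) = ρ g (π φ) :=
    isEquivariant_indSum C.L.fixingSubgroup ρ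
  let σ : Representation (ZMod p) GQ (LinearMap.ker π) :=
    { toFun := fun g => (indRep C.L.fixingSubgroup ρ g).restrict fun φ hφ => by
        rw [LinearMap.mem_ker] at hφ ⊢
        rw [hπ, hφ, map_zero]
      map_one' := LinearMap.ext fun φ => Subtype.ext (by
        rw [LinearMap.coe_restrict_apply, map_one, Module.End.one_apply, Module.End.one_apply])
      map_mul' := fun a b => LinearMap.ext fun φ => Subtype.ext (by
        rw [LinearMap.coe_restrict_apply, map_mul]
        rfl) }
  have hσ : TrivialOn C.L.fixingSubgroup σ := fun g hg φ => Subtype.ext (hI g hg φ.1)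
  let Sq : SES σ (indRep C.L.fixingSubgroup ρ) ρ :=
    { incl := (LinearMap.ker π).subtype
      proj := π
      incl_equiv := fun g a => rfl
      proj_equiv := hπ
      injective := Submodule.injective_subtype _
      surjective := indSum_surjective _
      exact := LinearMap.exact_iff.mpr (Submodule.range_subtype _).symm }
  have hadd : C.locEuler (indRep C.L.fixingSubgroup ρ) = C.locEuler σ + C.locEuler ρ := by
    rw [locEuler, locEuler, locEuler, ← Finset.sum_add_distrib]
    refine Finset.sum_congr rfl fun q _ => ?_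
    exact eulerChar_dec_SES q.1.2 (C.liesOver q.1) C.hL (C.locInv q.1) (C.locInv_ne_zero q.1)
      { incl := Sq.incl
        proj := Sq.proj
        incl_equiv := fun g a => Sq.incl_equiv g a
        proj_equiv := fun g a => Sq.proj_equiv g a
        injective := Sq.injective
        surjective := Sq.surjective
        exact := Sq.exact }
      (C.trivialOn_resAt _ hI q.1)
  have hind : C.locEuler (indRep C.L.fixingSubgroup ρ) =
      -(finrank (ZMod p) (GQ ⧸ C.L.fixingSubgroup → M) : ℤ) := by
    rw [locEuler, Finset.sum_congr rfl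
      fun q _ => eulerChar_dec_indRep q.1.2 (C.liesOver q.1) C.hL ρ hρ]
    refine (Finset.sum_eq_single (⟨ExtCitation.pPrime p, C.big.p_mem⟩ : C.datum.ι) ?_ ?_).trans ?_
    rotate_right
    · exact congrArg (fun n : ℕ => -(n : ℤ)) (if_pos rfl)
    · intro q _ hq
      rw [if_neg, Nat.cast_zero, neg_zero]
      exact fun h => hq (Subtype.ext (Subtype.ext h))
    · exact fun h => absurd (Finset.mem_univ _) h
  have hdim : finrank (ZMod p) (GQ ⧸ C.L.fixingSubgroup → M) =
      finrank (ZMod p) (LinearMap.ker π) + finrank (ZMod p) M := by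
    rw [← LinearMap.finrank_range_add_finrank_ker π,
      LinearMap.range_eq_top.mpr (indSum_surjective (k := ZMod p) C.L.fixingSubgroup), finrank_top,
      add_comm]
  have h1 := C.locEuler_le σ hσ
  have h2 := C.locEuler_le ρ hρ
  zify at hdim
  linarith

include hρ in
/-- **Exactness**: what is orthogonal to the classes of `M'` comes from a class of `M`, and
conversely. -/
theorem exact_locAll :
    (∀ t, (∀ x, C.datum.pairLoc ρ (C.datum.locAll ρ x) t = 0) →
        t ∈ LinearMap.range (C.datum.locAll (C.dualRep ρ))) ∧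
      ∀ t, (∀ y, C.datum.pairLoc ρ t (C.datum.locAll (C.dualRep ρ) y) = 0) →
        t ∈ LinearMap.range (C.datum.locAll ρ) := by
  have : ∀ i, FiniteDimensional (ZMod p) (H1c (C.datum.locLev i) (ρ.comp (C.datum.D i).subtype)) :=
    fun i => C.finite_H1_at ρ hρ i.1
  have : ∀ i, FiniteDimensional (ZMod p)
      (H1c (C.datum.locLev i) ((dualTw C.datum.χ ρ).comp (C.datum.D i).subtype)) :=
    fun i => C.finite_H1_at (C.dualRep ρ) (C.trivialOn_dual ρ hρ) i.1
  refine (C.datum.exact_of_finrank ρ (fun i => C.leftNondeg_at ρ hρ i.1)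
    (fun i => C.leftNondeg_at (C.dualRep ρ) (C.trivialOn_dual ρ hρ) i.1) C.reciprocity).2 ?_
  have h1 := C.finrank_ranges ρ hρ
  have h2 := C.finrank_loc ρ hρ
  rw [C.locEuler_eq ρ hρ, sub_neg_eq_add] at h2
  rw [← h2] at h1
  exact_mod_cast h1

end RatCtx

end

end FermatAgent.Duality
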