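import Fermat.Agent.Duality.Instance.GlobalExact
import Fermat.Agent.Duality.Instance.LocalPair
import Fermat.Agent.TW.Places
import Fermat.Agent.Hasse.Galois
import Fermat.Agent.Duality.Euler.Main

/-!
# The datum of `G_{ℚ,S}`

For `L ⊇ μ_p` normal and `S` big, with one place over each prime and the invariants of reciprocity,
the datum of `G_{ℚ,S}` is valid.
-/

set_option autoImplicit false

open scoped Pointwise

namespace FermatAgent.Duality

open Module

noncomputable section

local notation "Qb" => AlgebraicClosure ℚ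
local notation "GQ" => AlgebraicClosure ℚ ≃ₐ[ℚ] AlgebraicClosure ℚ

attribute [local instance] FermatAgent.RT.isGalois_algClosureRat

variable {p : ℕ} [Fact p.Prime]

/-- A place lies over one prime only. -/
lemma prime_eq_of_liesOver {A : ValuationSubring Qb} {q r : Nat.Primes}
    (hq : A.LiesOverPrime (q : ℕ)) (hr : A.LiesOverPrime (r : ℕ)) : q = r := by
  have : Fact (q : ℕ).Prime := ⟨q.2⟩
  have : Fact (r : ℕ).Prime := ⟨r.2⟩
  exact Subtype.ext
    (CharP.eq _ (Hasse.charP_residueField hq) (Hasse.charP_residueField hr))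

/-- Validity only depends on the levels up to equality. -/
theorem Datum.valid_of_lev_eq {G : Type} [Group G] (P : Datum p G) (L' : LevelSystem G)
    (e : P.L = L') (h1 : ∃ V ∈ L'.lev, V ≤ P.N)
    (h2 : ∀ i, IsLevHom (P.locLev i) L' (P.D i).subtype) (h : P.Valid) :
    ({ P with L := L', level_le := h1, isLevHom := h2 } : Datum p G).Valid := by
  subst e
  exact h

/-- What is needed over `ℚ`. -/
structure RatCtx (p : ℕ) [Fact p.Prime] : Type where
  S : Finset Nat.Primes
  L : IntermediateField ℚ Qb
  [fdL : FiniteDimensional ℚ L]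
  [normalL : L.fixingSubgroup.Normal]
  A : Nat.Primes → ValuationSubring Qb
  liesOver : ∀ q, (A q).LiesOverPrime (q : ℕ)
  hp : p ≠ 2
  hL : ContainsMuP p L
  big : BigFor p L S
  enough : Euler.BigEnough p L S

attribute [instance] RatCtx.fdL RatCtx.normalL

namespace RatCtx

variable (C : RatCtx p)

instance finiteIndex_fix : C.L.fixingSubgroup.FiniteIndex := finiteIndex_fixingSubgroup C.L

lemma normal_comap_id : (C.L.fixingSubgroup.comap (MonoidHom.id GQ)).Normal :=
  C.normalL.comap _

/-- The setup of `G_{ℚ,S}`. -/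
def setup : FieldSetup p GQ C.S where
  j := MonoidHom.id GQ
  j_injective := Function.injective_id
  ι := {q // q ∈ C.S}
  prime := Subtype.val
  place q := C.A q
  prime_mem q := q.2
  liesOver q := C.liesOver q
  exhausts := fun q hq B hB => by
    obtain ⟨g, hg⟩ := TW.exists_smul_eq q.2 (C.liesOver q) hB
    exact ⟨⟨q, hq⟩, rfl, g, hg.symm⟩
  inj := fun i k g e => Subtype.ext (prime_eq_of_liesOver
    (FieldSetup.liesOver_smul (C.liesOver i) g) (e ▸ C.liesOver k))
  F := C.L
  le_range := fun x _ => ⟨x, rfl⟩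
  unramified := C.big.unramified
  containsMuP := C.hL
  normal := C.normal_comap_id

/-- The invariants of reciprocity at the chosen places. -/
def locInv (q : Nat.Primes) :
    H2c (decLevels (C.A q)) (cyc (decChi p (C.A q))) →ₗ[ZMod p] ZMod p :=
  (exists_reciprocity p C.hp C.A C.liesOver).choose q

lemma locInv_ne_zero (q : Nat.Primes) : C.locInv q ≠ 0 :=
  (exists_reciprocity p C.hp C.A C.liesOver).choose_spec.1 q

/-- The invariants of the setup. -/
def setupInv : ∀ i : C.setup.ι,
    H2c (C.setup.decLev i) ((cyc C.setup.chi).comp (C.setup.dec i).subtype) →ₗ[ZMod p] ZMod p :=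
  fun q => C.locInv q.1

lemma level_le_sLevels : ∃ V ∈ (sLevels C.S).lev, V ≤ C.L.fixingSubgroup :=
  ⟨_, ⟨C.L, C.big.unramified, rfl⟩, le_rfl⟩

lemma isLevHom_dec (q : Nat.Primes) :
    IsLevHom (decLevels (C.A q)) (sLevels C.S) ((C.A q).decompositionSubgroup ℚ).subtype := by
  rintro _ ⟨K, hK, rfl⟩
  exact ⟨_, ⟨_, ⟨K, hK.1, rfl⟩, rfl⟩, fun d hd => hd⟩

/-- The datum of `G_{ℚ,S}`. -/
def datum : Datum p GQ :=
  { C.setup.datum C.setupInv with
    L := sLevels C.S
    level_le := C.level_le_sLevels
    isLevHom := fun q => C.isLevHom_dec q.1 }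

lemma comap_id_sLevels : (sLevels C.S).comap (MonoidHom.id GQ) = sLevels C.S := by
  cases h : sLevels C.S with
  | mk lev h1 h2 h3 h4 =>
    simp only [LevelSystem.comap, Subgroup.comap_id, exists_eq_right', Set.ofPred_mem_eq]

lemma hloc (i : C.setup.ι) :
    RightExact2 p (C.setup.decLev i) (C.setup.bigN.subgroupOf (C.setup.dec i)) :=
  rightExact2_decomposition i.1.2 C.L C.hL (C.liesOver i.1)

lemma reciprocity (x : H2c (sLevels C.S) (cyc (ExtCitation.cycloChar p))) :
    ∑ i, C.datum.inv i (C.datum.loc2 (cyc (ExtCitation.cycloChar p)) i x) = 0 :=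
  (Finset.sum_coe_sort C.S (fun q => C.locInv q
      (map2 (φ := LinearMap.id) (cycloRep p) _ (C.isLevHom_dec q) (fun _ _ => rfl) x))).trans
    ((exists_reciprocity p C.hp C.A C.liesOver).choose_spec.2 C.S C.big.p_mem x
      C.isLevHom_dec)

/-- The datum of `G_{ℚ,S}` satisfies duality. -/
theorem valid : C.datum.Valid := by
  have e : C.setup.lev = sLevels C.S := C.comap_id_sLevels
  refine Datum.valid_of_lev_eq (C.setup.datum C.setupInv) (sLevels C.S) e C.level_le_sLevels
    (fun q => C.isLevHom_dec q.1) ?_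
  refine C.setup.valid C.setupInv C.hp C.big.p_mem
    (C.big.classGroup C.L le_rfl C.hL) C.hloc (fun i => C.locInv_ne_zero i.1) ?_ ?_
  · intro x
    have hid : IsLevHom (sLevels C.S) C.setup.lev (MonoidHom.id GQ) := by
      rw [e]
      exact isLevHom_id _
    refine Eq.trans ?_ (C.reciprocity (map2 (φ := LinearMap.id) (cyc C.setup.chi)
      (cyc (ExtCitation.cycloChar p)) hid (fun _ _ => rfl) x))
    refine Finset.sum_congr rfl fun i _ => congrArg (C.locInv i.1) ?_
    induction x using Submodule.Quotient.induction_on with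
    | _ z => rfl
  · rw [e]
    exact rightExact2_sLevels C.hp C.hL C.big

end RatCtx

end

end FermatAgent.Duality
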