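import Fermat.Agent.Duality.Instance.RatExact
import Fermat.Agent.Duality.Instance.Inflation

/-!
# The Selmer bound when the dual Selmer group vanishes
-/

set_option autoImplicit false

namespace FermatAgent.Duality

open Module

noncomputable section

local notation "Qb" => AlgebraicClosure ℚ
local notation "GQ" => AlgebraicClosure ℚ ≃ₐ[ℚ] AlgebraicClosure ℚ

attribute [local instance] FermatAgent.RT.isGalois_algClosureRat

variable {p : ℕ} [Fact p.Prime] {M : Type} [AddCommGroup M] [Module (ZMod p) M]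
  [FiniteDimensional (ZMod p) M]

/-- The kernels of `c - 1` and `c + 1` for an involution. -/
lemma finrank_ker_involution (hp : p ≠ 2) {c : Module.End (ZMod p) M} (hc : ∀ m, c (c m) = m) :
    finrank (ZMod p) (LinearMap.ker (c - 1)) + finrank (ZMod p) (LinearMap.ker (c + 1)) =
      finrank (ZMod p) M := by
  have hrange : LinearMap.range (c + 1) = LinearMap.ker (c - 1) := by
    refine le_antisymm ?_ fun m hm => ?_
    · rintro _ ⟨m, rfl⟩
      rw [LinearMap.mem_ker]
      simp [hc, add_comm]
    · rw [LinearMap.mem_ker, LinearMap.sub_apply, Module.End.one_apply, sub_eq_zero] at hm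
      refine ⟨(2 : ZMod p)⁻¹ • m, ?_⟩
      rw [LinearMap.add_apply, Module.End.one_apply, map_smul, hm, ← add_smul, ← two_mul,
        mul_inv_cancel₀ (two_ne_zero_of_ne_two hp), one_smul]
  rw [← hrange]
  exact LinearMap.finrank_range_add_finrank_ker _

namespace RatCtx

variable (C : RatCtx p) (ρ : Representation (ZMod p) GQ M)
variable (T : Finset Nat.Primes)
  (cond : ∀ q : Nat.Primes, Submodule (ZMod p) (H1c (decLevels (C.A q)) (C.resAt ρ q)))

/-- The Selmer classes for local conditions at `T`. -/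
def selmerT : Submodule (ZMod p) (H1c (sLevels T) ρ) :=
  ⨅ q : T, (cond q.1).comap (decRes1 T ρ (C.A q.1))

/-- The local conditions, completed by the unramified classes. -/
def fullCond (q : C.datum.ι) :
    Submodule (ZMod p) (H1c (C.datum.locLev q) (ρ.comp (C.datum.D q).subtype)) :=
  if q.1 ∈ T then cond q.1 else decUnr (C.resAt ρ q.1)

omit [FiniteDimensional (ZMod p) M] in
lemma fullCond_of_mem {q : C.datum.ι} (hq : q.1 ∈ T) : C.fullCond ρ T cond q = cond q.1 :=
  if_pos hq

omit [FiniteDimensional (ZMod p) M] in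
lemma fullCond_of_notMem {q : C.datum.ι} (hq : q.1 ∉ T) :
    C.fullCond ρ T cond q = decUnr (C.resAt ρ q.1) :=
  if_neg hq

variable (hρ : TrivialOn C.L.fixingSubgroup ρ) (hTS : T ⊆ C.S)
  (hLT : C.L.IsUnramifiedOutside T) (hpT : ExtCitation.pPrime p ∈ T)
  (Q : Set Nat.Primes) (hQT : ∀ q ∈ Q, q ∈ T)
  (hQ : ∀ q ∈ Q, cond q = ⊤)
  (hdual : ∀ y : H1c (sLevels T) (C.dualRep ρ),
    (∀ q ∈ Q, decRes1 T (C.dualRep ρ) (C.A q) y = 0) → y = 0)

-- `hQT` is unused here but kept so that callers see a uniform argument list.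
set_option linter.unusedSectionVars false in
include hρ hTS hLT hQT hdual in
/-- Classes of the dual vanishing at `Q` and unramified outside `T` vanish. -/
lemma eq_zero_of_dual (y : H1c (sLevels C.S) (C.dualRep ρ))
    (h0 : ∀ q ∈ Q, decRes1 C.S (C.dualRep ρ) (C.A q) y = 0)
    (hu : ∀ q ∈ C.S, q ∉ T → decRes1 C.S (C.dualRep ρ) (C.A q) y ∈
      decUnr ((C.dualRep ρ).comp ((C.A q).decompositionSubgroup ℚ).subtype)) : y = 0 := by
  obtain ⟨x, rfl⟩ := exists_inflS1_eq (C.dualRep ρ) hTS hLT (C.trivialOn_dual ρ hρ) C.A C.liesOver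
    y hu
  rw [hdual x fun q hq => (decRes1_inflS1 (C.dualRep ρ) hTS (C.A q) x).symm.trans (h0 q hq),
    map_zero]

set_option maxHeartbeats 1600000 in
include hρ hTS hLT hpT hQT hQ hdual in
/-- **The Selmer bound.** -/
theorem selmer_bound :
    FiniteDimensional (ZMod p) (C.selmerT ρ T cond) ∧
    finrank (ZMod p) (C.selmerT ρ T cond) + finrank (ZMod p) (C.dualRep ρ).invariants +
        ∑ q ∈ T, finrank (ZMod p) (Representation.invariants (C.resAt ρ q)) +
        finrank (ZMod p) (LinearMap.ker (ρ complexConjugation - 1)) ≤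
      finrank (ZMod p) ρ.invariants + ∑ q ∈ T, finrank (ZMod p) (cond q) := by
  classical
  have hIC : ∀ q : Nat.Primes, q ∉ T → (C.A q).inertiaSubgroupIn ℚ ≤ C.L.fixingSubgroup :=
    fun q hq => hLT.2 q hq (C.A q) (C.liesOver q)
  have hnep : ∀ q : Nat.Primes, q ∉ T → (q : ℕ) ≠ p := fun q hq h =>
    hq ((show q = ExtCitation.pPrime p from Subtype.ext h) ▸ hpT)
  have hfinS : FiniteDimensional (ZMod p) (H1c C.datum.L ρ) := C.finite_H1_global ρ hρ
  have hfin : ∀ i, FiniteDimensional (ZMod p)
      (H1c (C.datum.locLev i) (ρ.comp (C.datum.D i).subtype)) := fun i => C.finite_H1_at ρ hρ i.1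
  have hfin' : ∀ i, FiniteDimensional (ZMod p)
      (H1c (C.datum.locLev i) ((dualTw C.datum.χ ρ).comp (C.datum.D i).subtype)) :=
    fun i => C.finite_H1_at (C.dualRep ρ) (C.trivialOn_dual ρ hρ) i.1
  have hleft := C.datum.pairLoc_left ρ fun i => C.leftNondeg_at ρ hρ i.1
  have hright := C.datum.pairLoc_right ρ
    fun i => C.leftNondeg_at (C.dualRep ρ) (C.trivialOn_dual ρ hρ) i.1
  let U : Submodule (ZMod p) (C.datum.Loc1 ρ) := LinearMap.range (C.datum.locAll ρ)
  let W : Submodule (ZMod p) (C.datum.Loc1 ρ) :=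
    ⨅ q, (C.fullCond ρ T cond q).comap (LinearMap.proj q)
  have hWmem : ∀ t, t ∈ W ↔ ∀ q, t q ∈ C.fullCond ρ T cond q := fun t => Submodule.mem_iInf _
  -- the dual Selmer group vanishes
  have hdualS : ∀ y : H1c C.datum.L (dualTw C.datum.χ ρ),
      (∀ t ∈ W, C.datum.pairLoc ρ t (C.datum.locAll (dualTw C.datum.χ ρ) y) = 0) → y = 0 := by
    intro y hy
    have hloc : ∀ (q : C.datum.ι) (x : H1c (C.datum.locLev q) (ρ.comp (C.datum.D q).subtype)),
        x ∈ C.fullCond ρ T cond q →
          C.datum.pairAt ρ q x (C.datum.loc1 (dualTw C.datum.χ ρ) q y) = 0 := fun q x hx => by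
      have h1 := hy (Pi.single q x) ((hWmem _).mpr fun j => by
        by_cases hj : j = q
        · subst hj
          rw [Pi.single_eq_same]
          exact hx
        · rw [Pi.single_eq_of_ne hj]
          exact zero_mem _)
      rw [Datum.pairLoc_apply, Finset.sum_eq_single q
        (fun j _ hj => by rw [Pi.single_eq_of_ne hj, map_zero, LinearMap.zero_apply]) (by simp),
        Pi.single_eq_same, Datum.locAll_apply] at h1
      exact h1
    refine C.eq_zero_of_dual ρ T hρ hTS hLT Q hQT hdual y (fun q hq => ?_) fun q hqS hqT => ?_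
    · let i : C.datum.ι := ⟨q, hTS (hQT q hq)⟩
      refine right_nondeg_of_left (C.datum.χ.comp (C.datum.D i).subtype)
        (ρ.comp (C.datum.D i).subtype) (C.datum.locLev i) (C.datum.inv i)
        (C.leftNondeg_at (C.dualRep ρ) (C.trivialOn_dual ρ hρ) q) _ fun x => hloc i x ?_
      rw [C.fullCond_of_mem ρ T cond (q := i) (hQT q hq)]
      exact ((hQ q hq).symm ▸ Submodule.mem_top : _ ∈ cond q)
    · let i : C.datum.ι := ⟨q, hqS⟩
      refine mem_decUnr_of_perp (C.resAt ρ q) (hIC q hqT) (C.trivialOn_resAt ρ hρ q) q.2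
        (C.liesOver q) (hnep q hqT) C.hL (C.locInv q) (C.locInv_ne_zero q) _ fun x hx => hloc i x ?_
      rw [C.fullCond_of_notMem ρ T cond (q := i) hqT]
      exact hx
  have hsha' : C.datum.sha1 (dualTw C.datum.χ ρ) = ⊥ := (Submodule.eq_bot_iff _).mpr fun y hy =>
    hdualS y fun t _ => by
      rw [show C.datum.locAll (dualTw C.datum.χ ρ) y = 0 from hy, map_zero]
  -- global classes and the conditions span all local classes
  have hsup : U ⊔ W = ⊤ := by
    have hinj : Function.Injective (C.datum.pairLoc ρ).flip :=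
      (injective_iff_map_eq_zero _).mpr fun y hy => hright y fun x => LinearMap.congr_fun hy x
    have hsurj : Function.Surjective (C.datum.pairLoc ρ).flip :=
      (LinearMap.injective_iff_surjective_of_finrank_eq_finrank
        (by rw [Subspace.dual_finrank_eq, finrank_eq_of_nondeg hleft hright])).mp hinj
    refine Submodule.dualAnnihilator_eq_bot_iff.mp ((Submodule.eq_bot_iff _).mpr fun f hf => ?_)
    obtain ⟨t, rfl⟩ := hsurj f
    rw [Submodule.mem_dualAnnihilator] at hf
    obtain ⟨y, rfl⟩ := (C.exact_locAll ρ hρ).1 t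
      fun x => hf _ (Submodule.mem_sup_left ⟨x, rfl⟩)
    rw [hdualS y fun u hu => hf u (Submodule.mem_sup_right hu), map_zero, map_zero]
  -- the Selmer group inside `H¹(G_S, M)`
  let Sel : Submodule (ZMod p) (H1c C.datum.L ρ) := W.comap (C.datum.locAll ρ)
  have hSel : finrank (ZMod p) Sel =
      finrank (ZMod p) (C.datum.sha1 ρ) + finrank (ZMod p) (U ⊓ W : Submodule _ _) := by
    have h1 := LinearMap.finrank_range_add_finrank_ker ((C.datum.locAll ρ).domRestrict Sel)
    have h2 : LinearMap.range ((C.datum.locAll ρ).domRestrict Sel) = U ⊓ W := by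
      ext t
      constructor
      · rintro ⟨x, rfl⟩
        exact ⟨⟨x.1, rfl⟩, x.2⟩
      · rintro ⟨⟨x, rfl⟩, hx⟩
        exact ⟨⟨x, hx⟩, rfl⟩
    have h3 : finrank (ZMod p) (LinearMap.ker ((C.datum.locAll ρ).domRestrict Sel)) =
        finrank (ZMod p) (C.datum.sha1 ρ) := by
      rw [LinearMap.ker_domRestrict]
      refine (Submodule.comapSubtypeEquivOfLe ?_).finrank_eq
      intro x hx
      show C.datum.locAll ρ x ∈ W
      rw [LinearMap.mem_ker.mp hx]
      exact zero_mem _
    rw [h2, h3] at h1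
    omega
  have hW : finrank (ZMod p) W ≤ ∑ q, finrank (ZMod p) (C.fullCond ρ T cond q) := by
    have hfr : ∀ q, Module.Finite (ZMod p) (C.fullCond ρ T cond q) := fun q =>
      Module.Finite.of_injective _ (Submodule.subtype_injective _)
    have hfree : ∀ q, Module.Free (ZMod p) (C.fullCond ρ T cond q) :=
      fun q => Module.Free.of_divisionRing (ZMod p) _
    rw [← Module.finrank_pi_fintype (ZMod p) (M := fun q => C.fullCond ρ T cond q)]
    exact LinearMap.finrank_le_finrank_of_injective
      (f := LinearMap.pi fun q => (LinearMap.proj q ∘ₗ W.subtype).codRestrict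
        (C.fullCond ρ T cond q) fun t => (hWmem t.1).mp t.2 q)
      fun a b hab => Subtype.ext (funext fun q => congrArg Subtype.val (congrFun hab q))
  have hbound : ∑ q, finrank (ZMod p) (C.fullCond ρ T cond q) ≤
      ∑ q ∈ T, finrank (ZMod p) (cond q) +
        ∑ q ∈ C.S \ T, finrank (ZMod p) (Representation.invariants (C.resAt ρ q)) := by
    refine le_trans (le_of_le_of_eq (Finset.sum_le_sum (g := fun q : C.datum.ι => if q.1 ∈ T then
      finrank (ZMod p) (cond q.1) else
        finrank (ZMod p) (Representation.invariants (C.resAt ρ q.1))) fun q _ => ?_)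
      (Finset.sum_coe_sort C.S fun q => if q ∈ T then finrank (ZMod p) (cond q) else
        finrank (ZMod p) (Representation.invariants (C.resAt ρ q)))) ?_
    · by_cases hq : q.1 ∈ T
      · rw [C.fullCond_of_mem ρ T cond hq]
        exact le_of_eq (if_pos hq).symm
      · rw [C.fullCond_of_notMem ρ T cond hq]
        refine le_of_le_of_eq ?_ (if_neg hq).symm
        exact finrank_decUnr_le (C.resAt ρ q.1) (hIC q.1 hq) (C.trivialOn_resAt ρ hρ q.1) q.1.2
          (C.liesOver q.1) C.hL
    · rw [← Finset.sum_sdiff hTS, add_comm]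
      refine Nat.add_le_add (le_of_eq ?_) (le_of_eq ?_)
      · exact Finset.sum_congr rfl fun q hq => if_pos hq
      · exact Finset.sum_congr rfl fun q hq => if_neg (Finset.mem_sdiff.mp hq).2
  have hinv : ∑ q ∈ C.S \ T, finrank (ZMod p) (Representation.invariants (C.resAt ρ q)) +
      ∑ q ∈ T, finrank (ZMod p) (Representation.invariants (C.resAt ρ q)) =
      ∑ q : C.datum.ι, finrank (ZMod p) (Representation.invariants (ρ.comp (C.datum.D q).subtype)) :=
    (Finset.sum_sdiff hTS).trans
      (Finset.sum_coe_sort C.S fun q => finrank (ZMod p) (Representation.invariants (C.resAt ρ q))).symm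
  have hmap : ∀ x ∈ C.selmerT ρ T cond, inflS1 ρ hTS x ∈ Sel := fun x hx => by
    show C.datum.locAll ρ (inflS1 ρ hTS x) ∈ W
    refine (hWmem _).mpr fun q => ?_
    have e : C.datum.locAll ρ (inflS1 ρ hTS x) q = decRes1 T ρ (C.A q.1) x :=
      decRes1_inflS1 ρ hTS (C.A q.1) x
    rw [e]
    by_cases hq : q.1 ∈ T
    · rw [C.fullCond_of_mem ρ T cond hq]
      exact (Submodule.mem_iInf _).mp hx ⟨q.1, hq⟩
    · rw [C.fullCond_of_notMem ρ T cond hq]
      exact decRes1_mem_decUnr ρ hq (C.liesOver q.1) (hIC q.1 hq) hρ x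
  let f : C.selmerT ρ T cond →ₗ[ZMod p] Sel :=
    ((inflS1 ρ hTS).domRestrict _).codRestrict Sel fun x => hmap x.1 x.2
  have hf : Function.Injective f := fun a b hab =>
    Subtype.ext (inflS1_injective ρ hTS (congrArg Subtype.val hab))
  have hfinSel : FiniteDimensional (ZMod p) Sel := inferInstance
  refine ⟨Module.Finite.of_injective f hf, ?_⟩
  have h0 := LinearMap.finrank_le_finrank_of_injective hf
  have h1 := C.finrank_range_locAll ρ hρ
  rw [show finrank (ZMod p) (C.datum.sha1 (C.dualRep ρ)) = 0 from by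
    rw [show C.datum.sha1 (C.dualRep ρ) = ⊥ from hsha', finrank_bot]] at h1
  have h2 := C.finrank_loc ρ hρ
  rw [C.locEuler_eq ρ hρ, sub_neg_eq_add, locInvariants, Finset.sum_add_distrib] at h2
  have h3 := Submodule.finrank_sup_add_finrank_inf_eq U W
  rw [hsup, finrank_top] at h3
  have h4 := finrank_ker_involution C.hp (c := ρ complexConjugation) (fun m => by
    rw [← Module.End.mul_apply, ← map_mul, complexConjugation_mul_self, map_one,
      Module.End.one_apply])
  push_cast at h2
  zify at h0 h3 h4 hSel hW hbound hinv ⊢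
  push_cast at h1
  linarith

end RatCtx

end

end FermatAgent.Duality
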