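import Fermat.Agent.Duality.Instance.LocalPair
import Fermat.Agent.TW.Decomposition

/-!
# Unramified classes at a prime away from `p`

For a module unramified at `A`: the unramified classes are at most as many as the invariants, and
a class of the twisted dual orthogonal to them is unramified.
-/

set_option autoImplicit false

open scoped Pointwise

namespace FermatAgent.Duality

open Module

noncomputable section

local notation "Qb" => AlgebraicClosure ℚ
local notation "GQ" => AlgebraicClosure ℚ ≃ₐ[ℚ] AlgebraicClosure ℚ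

attribute [local instance] FermatAgent.RT.isGalois_algClosureRat

variable {p : ℕ} [Fact p.Prime]

/-- Inertia inside the decomposition group. -/
abbrev decInertia (A : ValuationSubring Qb) : Subgroup (A.decompositionSubgroup ℚ) :=
  (A.inertiaSubgroupIn ℚ).subgroupOf (A.decompositionSubgroup ℚ)

lemma conj_mem_decInertia {A : ValuationSubring Qb} {i d : A.decompositionSubgroup ℚ}
    (hi : i ∈ decInertia A) : d * i * d⁻¹ ∈ decInertia A := by
  have h := TW.conj_mem_inertia (g := (d : GQ)) (show (i : GQ) ∈ A.inertiaSubgroupIn ℚ from hi)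
  rwa [show (d : GQ) • A = A from d.2] at h

variable {A : ValuationSubring Qb} {M : Type} [AddCommGroup M] [Module (ZMod p) M]
  (σ : Representation (ZMod p) (A.decompositionSubgroup ℚ) M)

/-- The classes vanishing on inertia. -/
def decUnr : Submodule (ZMod p) (H1c (decLevels A) σ) :=
  LinearMap.ker (res1 (decLevels A) σ (decInertia A))

variable {L : IntermediateField ℚ Qb} [FiniteDimensional ℚ L] [L.fixingSubgroup.Normal]
  (hI : A.inertiaSubgroupIn ℚ ≤ L.fixingSubgroup) (hσ : TrivialOn (decSub L A) σ)

include hI hσ in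
omit [FiniteDimensional ℚ L] [L.fixingSubgroup.Normal] in
lemma cl1_mem_decUnr_iff (z : Z1 (decLevels A) σ) :
    cl1 (decLevels A) σ z ∈ decUnr σ ↔ ∀ i ∈ decInertia A, z.1 i = 0 := by
  refine LinearMap.mem_ker.trans ((cl1_eq_zero_iff _ _ _).trans ⟨?_, fun h => ⟨0, ?_⟩⟩)
  · rintro ⟨m, hm⟩ i hi
    refine (congrFun hm ⟨i, hi⟩).symm.trans ?_
    show σ i m - m = 0
    rw [hσ i (hI hi), sub_self]
  · funext i
    show σ (i : A.decompositionSubgroup ℚ) 0 - 0 = _
    rw [map_zero, sub_zero]
    exact (h i.1 i.2).symm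

section Bound

variable (F : A.decompositionSubgroup ℚ)

/-- The value of a class at `F`, modulo `F - 1`. -/
def evalFrob : H1c (decLevels A) σ →ₗ[ZMod p] M ⧸ LinearMap.range (σ F - 1) :=
  (B1 (decLevels A) σ).liftQ
    ((LinearMap.range (σ F - 1)).mkQ ∘ₗ LinearMap.proj F ∘ₗ (Z1 (decLevels A) σ).subtype) <| by
    rintro z ⟨m, hm⟩
    refine LinearMap.mem_ker.mpr ((Submodule.Quotient.mk_eq_zero _).mpr ⟨m, ?_⟩)
    exact congrFun hm F

variable [FiniteDimensional (ZMod p) M] {ℓ : ℕ} (hℓ : ℓ.Prime) (hA : A.LiesOverPrime ℓ)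
  (hL : ContainsMuP p L)

include hI hσ hℓ hA hL in
/-- The unramified classes are at most as many as the invariants. -/
theorem finrank_decUnr_le :
    finrank (ZMod p) (decUnr σ) ≤ finrank (ZMod p) σ.invariants := by
  obtain ⟨F, hF⟩ := RT.exists_isFrobeniusAt hℓ hA
  let F' : A.decompositionSubgroup ℚ := ⟨F, (TW.isFrobeniusAt_iff.1 hF).1⟩
  have := finite_H1_dec hℓ hA hL hσ
  have hgen : ∀ (K : IntermediateField ℚ Qb) [FiniteDimensional ℚ K]
      (g : A.decompositionSubgroup ℚ), ∃ m : ℕ, ∃ i ∈ decInertia A,
        ((F' ^ m * i)⁻¹ * g : A.decompositionSubgroup ℚ) ∈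
          decSub L A ⊓ decSub K A := by
    intro K _ g
    let N := IntermediateField.normalClosure ℚ (L ⊔ K : IntermediateField ℚ Qb) Qb
    have : FiniteDimensional ℚ N := normalClosure.is_finiteDimensional ℚ _ Qb
    have : IsGalois ℚ N := IsGalois.normalClosure ℚ _ Qb
    obtain ⟨m, i, hi, hgi⟩ := TW.exists_frobenius_pow_mul hℓ hA N hF g.2
    refine ⟨m, ⟨i, FermatAgent.Local.mem_decomposition_of_inertia hi⟩, hi, ?_⟩
    have hN : ((F ^ m * i)⁻¹ * g : GQ) ∈ N.fixingSubgroup := by
      refine (IntermediateField.mem_fixingSubgroup_iff _ _).mpr fun x hx => ?_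
      rw [AlgEquiv.mul_apply, hgi x hx, ← AlgEquiv.mul_apply, inv_mul_cancel, AlgEquiv.one_apply]
    have hle : (L ⊔ K : IntermediateField ℚ Qb) ≤ N := IntermediateField.le_normalClosure _
    exact ⟨IntermediateField.fixingSubgroup_antitone (le_sup_left.trans hle) hN,
      IntermediateField.fixingSubgroup_antitone (le_sup_right.trans hle) hN⟩
  have hker : LinearMap.ker (σ F' - 1) = σ.invariants := by
    refine le_antisymm (fun m hm g => ?_) fun m hm => ?_
    · rw [LinearMap.mem_ker, LinearMap.sub_apply, Module.End.one_apply, sub_eq_zero] at hm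
      obtain ⟨k, i, hi, hg⟩ := hgen L g
      rw [show g = F' ^ k * i * ((F' ^ k * i)⁻¹ * g) by group, map_mul, Module.End.mul_apply,
        hσ _ hg.1, map_mul, Module.End.mul_apply, hσ i (hI hi)]
      clear hg
      induction k with
      | zero => simp
      | succ k ih => rw [pow_succ, map_mul, Module.End.mul_apply, hm, ih]
    · rw [LinearMap.mem_ker, LinearMap.sub_apply, Module.End.one_apply, hm F', sub_self]
  have hdim : finrank (ZMod p) (M ⧸ LinearMap.range (σ F' - 1)) =
      finrank (ZMod p) σ.invariants := by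
    have h1 := Submodule.finrank_quotient_add_finrank (LinearMap.range (σ F' - 1))
    have h2 := LinearMap.finrank_range_add_finrank_ker (σ F' - 1)
    rw [hker] at h2
    omega
  rw [← hdim]
  refine LinearMap.finrank_le_finrank_of_injective (f := (evalFrob σ F').domRestrict (decUnr σ))
    ((injective_iff_map_eq_zero _).mpr ?_)
  rintro ⟨x, hx⟩ h0
  refine Subtype.ext ?_
  show x = 0
  induction x using Submodule.Quotient.induction_on with
  | _ z =>
    have hz := (cl1_mem_decUnr_iff σ hI hσ z).mp hx
    obtain ⟨m, hm⟩ : z.1 F' ∈ LinearMap.range (σ F' - 1) :=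
      (Submodule.Quotient.mk_eq_zero _).mp h0
    refine (cl1_eq_zero_iff _ _ _).mpr ⟨m, funext fun g => ?_⟩
    rw [LinearMap.sub_apply, Module.End.one_apply] at hm
    let w : A.decompositionSubgroup ℚ → M := fun g => z.1 g - (σ g m - m)
    have hw : ∀ a b, w (a * b) = σ a (w b) + w a := fun a b => by
      simp only [w, z.2.2 a b, map_mul, Module.End.mul_apply, map_sub]
      abel
    have hwF : w F' = 0 := sub_eq_zero.mpr hm.symm
    have hwI : ∀ i ∈ decInertia A, w i = 0 := fun i hi => by
      simp only [w, hz i hi, hσ i (hI hi), sub_self]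
    have hwk : ∀ k : ℕ, w (F' ^ k) = 0 := fun k => by
      induction k with
      | zero =>
        have h1 := hw 1 1
        simp only [mul_one, map_one, Module.End.one_apply] at h1
        rw [pow_zero]
        exact left_eq_add.mp h1
      | succ k ih => rw [pow_succ, hw, hwF, map_zero, ih, add_zero]
    obtain ⟨_, ⟨_, ⟨K, hK, rfl⟩, rfl⟩, hlev⟩ := z.2.1
    have : FiniteDimensional ℚ K := hK
    obtain ⟨k, i, hi, hg⟩ := hgen K g
    have hwu : w ((F' ^ k * i)⁻¹ * g) = 0 := by
      have h2 : z.1 ((F' ^ k * i)⁻¹ * g) = z.1 1 := by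
        have h3 := hlev 1 _ hg.2
        rwa [one_mul] at h3
      have h4 : z.1 1 = 0 := by
        have h1 := z.2.2 1 1
        simp only [mul_one, map_one, Module.End.one_apply] at h1
        exact left_eq_add.mp h1
      simp only [w, h2, h4, hσ _ hg.1, sub_self]
    have hw0 : w g = 0 := by
      rw [show g = F' ^ k * i * ((F' ^ k * i)⁻¹ * g) by group, hw, hwu, map_zero, zero_add, hw,
        hwI i hi, map_zero, zero_add, hwk]
    rw [dd₀_apply]
    exact (sub_eq_zero.mp hw0).symm

end Bound

section Perp

variable [FiniteDimensional (ZMod p) M] {ℓ : ℕ} (hℓ : ℓ.Prime) (hA : A.LiesOverPrime ℓ)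
  (hℓp : ℓ ≠ p) (hL : ContainsMuP p L)

include hℓ hA hℓp hL in
omit [L.fixingSubgroup.Normal] in
/-- A local class of `L` orthogonal to the unramified ones is unramified. -/
theorem mem_unramifiedH1_of_cup (x : localH1 p L A)
    (hx : ∀ u ∈ unramifiedH1 p L A, cupTriv (ZMod p) (localLevels L A) x u = 0) :
    x ∈ unramifiedH1 p L A := by
  have hD := localDualityAt p hℓ L hL hA
  have := hD.finite_H1
  let W : Submodule (ZMod p) (localH1 p L A) :=
    ⨅ u : unramifiedH1 p L A, LinearMap.ker ((cupTriv (ZMod p) (localLevels L A)).flip u.1)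
  have hW : ∀ y, y ∈ W ↔
      ∀ u ∈ unramifiedH1 p L A, cupTriv (ZMod p) (localLevels L A) y u = 0 := fun y => by
    simp only [W, Submodule.mem_iInf, LinearMap.mem_ker, LinearMap.flip_apply, Subtype.forall]
  have hle : unramifiedH1 p L A ≤ W := fun u hu =>
    (hW u).mpr fun v hv => hD.cup_unramified hℓp u hu v hv
  have hne : W ≠ ⊤ := by
    intro htop
    have hbot : unramifiedH1 p L A = ⊥ := (Submodule.eq_bot_iff _).mpr fun u hu =>
      hD.cup_nondegenerate u fun y => by
        have h := (hW y).mp (htop ▸ Submodule.mem_top) u hu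
        have h' := cup11_flip (localLevels L A) (isPairing_mul (ZMod p) (localGroup L A)) y u
        rw [show cupTriv (ZMod p) (localLevels L A) u y =
          -cupTriv (ZMod p) (localLevels L A) y u by
            rw [← show cup11 (triv (ZMod p) (localGroup L A)) (localLevels L A)
              (isPairing_flip (isPairing_mul (ZMod p) (localGroup L A))) u y =
                cupTriv (ZMod p) (localLevels L A) u y from ?_]
            exact h'
            induction u using Submodule.Quotient.induction_on with
            | _ a =>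
            induction y using Submodule.Quotient.induction_on with
            | _ b =>
              refine congrArg (cl2 (localLevels L A) (triv (ZMod p) (localGroup L A)))
                (Subtype.ext (funext fun q => ?_))
              exact mul_comm _ _, h, neg_zero]
    have h1 := hD.finrank_unramified
    rw [hbot, finrank_bot] at h1
    exact zero_ne_one h1
  have hlt := Submodule.finrank_lt hne
  rw [hD.finrank_H1, localDegree, if_neg hℓp] at hlt
  have h1 := hD.finrank_unramified
  have h2 := Submodule.finrank_mono hle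
  rw [Submodule.eq_of_le_of_finrank_eq hle (by omega)]
  exact (hW x).mpr hx

omit [FiniteDimensional (ZMod p) M] in
set_option maxHeartbeats 800000 in
include hI hσ hℓ hA hℓp hL in
/-- A class of the twisted dual orthogonal to the unramified classes is unramified. -/
theorem mem_decUnr_of_perp (inv : H2c (decLevels A) (cyc (decChi p A)) →ₗ[ZMod p] ZMod p)
    (hinv : inv ≠ 0) (y : H1c (decLevels A) (dualTw (decChi p A) σ))
    (hy : ∀ x ∈ decUnr σ, pair1 (decChi p A) σ (decLevels A) inv x y = 0) :
    y ∈ decUnr (dualTw (decChi p A) σ) := by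
  have hN := exists_level_decSub L A
  have htr := trivialOn_dualTw (decChi p A) σ (decChi_trivial L A hL) hσ
  have hbij := invCores_dec_bijective hℓ hA hL inv hinv
  induction y using Submodule.Quotient.induction_on with
  | _ b =>
  refine (cl1_mem_decUnr_iff (dualTw (decChi p A) σ) hI htr b).mpr fun i hi => ?_
  refine LinearMap.ext fun m => ?_
  let ym : Z1 (localLevels L A) (triv (ZMod p) (localGroup L A)) :=
    ⟨fun g => b.1 ⟨g.1, g.2.2⟩ m, by
      obtain ⟨_, ⟨V, hV, rfl⟩, hlev⟩ := b.2.1
      exact ⟨_, ⟨V, hV, rfl⟩, fun g s hs => congrArg (fun f : Dual (ZMod p) M => f m)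
        (hlev ⟨g.1, g.2.2⟩ ⟨s.1, s.2.2⟩ hs)⟩, fun g g' => by
      show b.1 _ m = b.1 _ m + b.1 _ m
      rw [show (⟨(g * g' : localGroup L A).1, (g * g').2.2⟩ : A.decompositionSubgroup ℚ) =
        ⟨g.1, g.2.2⟩ * ⟨g'.1, g'.2.2⟩ from rfl, b.2.2, LinearMap.add_apply,
        htr ⟨g.1, g.2.2⟩ g.2.1]⟩
  suffices h : cl1 (localLevels L A) (triv (ZMod p) (localGroup L A)) ym ∈
      unramifiedH1 p L A by
    obtain ⟨r, hr⟩ := (cl1_eq_zero_iff _ _ _).mp (LinearMap.mem_ker.mp h)
    refine (congrFun hr ⟨⟨(i : GQ), hI hi, i.2⟩, hi⟩).symm.trans ?_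
    simp
  refine mem_unramifiedH1_of_cup hℓ hA hℓp hL _ fun u' hu' => ?_
  have hse : IsEquivariant (triv (ZMod p) (decSub L A)) (σ.comp (decSub L A).subtype)
      (MonoidHom.id (decSub L A)) (LinearMap.toSpanSingleton (ZMod p) M m) := fun d r => by
    show r • m = σ d.1 (r • m)
    rw [hσ _ d.2]
  let a := map1 _ _ (isLevHom_id (decSubLevels L A)) hse (toDecSub1 u')
  have hxu : cores1 (decSub L A) σ (decLevels A) hN a ∈ decUnr σ := by
    induction u' using Submodule.Quotient.induction_on with
    | _ c =>
    obtain ⟨r, hr⟩ := (cl1_eq_zero_iff _ _ _).mp (LinearMap.mem_ker.mp hu')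
    have hc : ∀ d : localInertia L A, c.1 d.1 = 0 := fun d => by
      refine (congrFun hr d).symm.trans ?_
      simp
    refine (cl1_mem_decUnr_iff σ hI hσ _).mpr fun j hj => ?_
    show coresFun₁ (decSub L A) σ (fun v => c.1 (decSubEquiv L A v) • m) j = 0
    rw [coresFun₁_apply]
    refine Finset.sum_eq_zero fun q _ => ?_
    have hmem : ((coresU (decSub L A) j q : decSub L A) : A.decompositionSubgroup ℚ) ∈
        decInertia A := by
      have he : j⁻¹ • q = q := smul_eq_of_mem_normal (decSub L A) inferInstance le_rfl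
        ((decSub L A).inv_mem (hI hj)) q
      simp only [coresU, he]
      simpa [mul_assoc] using conj_mem_decInertia (d := (coresSec (decSub L A) q)⁻¹) hj
    rw [hc ⟨decSubEquiv L A (coresU (decSub L A) j q), hmem⟩, zero_smul, map_zero]
  have hev := isEquivariant_eval (decChi p A) σ
  have h1 := pair1_eval (decChi p A) σ (decLevels A) inv (cores1 (decSub L A) σ (decLevels A) hN a)
    (cl1 (decLevels A) (dualTw (decChi p A) σ) b) |>.trans (neg_eq_zero.mpr (hy _ hxu))
  rw [← cores1_map1 (decSub L A) (decLevels A) hN hev] at h1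
  have h2 := (pair1_cores1 (decChi p A) (decLevels A) inv (decSub L A) hN
    (dualTw (decChi p A) σ) _ _).symm.trans h1
  refine (toDecCyc2_bijective (A := A) hL).1 (hbij.1 ?_)
  rw [map_zero, map_zero]
  refine Eq.trans ?_ h2
  refine congrArg (invSub (decChi p A) (decLevels A) inv (decSub L A) hN) ?_
  induction u' using Submodule.Quotient.induction_on with
  | _ c =>
    refine congrArg (cl2 (decSubLevels L A) ((cyc (decChi p A)).comp (decSub L A).subtype))
      (Subtype.ext (funext fun q => ?_))
    obtain ⟨g, g'⟩ := q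
    show b.1 g.1 m * c.1 (decSubEquiv L A g') =
      dualTw (decChi p A) (dualTw (decChi p A) σ) g.1
        (Dual.eval (ZMod p) M (c.1 (decSubEquiv L A g') • m)) (b.1 g.1)
    rw [dualTw_dualTw_eval, hσ _ g.2]
    show _ = b.1 g.1 (c.1 (decSubEquiv L A g') • m)
    rw [map_smul, smul_eq_mul, mul_comm]

end Perp

end

end FermatAgent.Duality
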